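import Mathlib

/-!
# Theta functions with characteristics and their logarithmic derivatives: transformation laws
-/

set_option autoImplicit false

noncomputable section

namespace Fermat.Agent.DS2

open Complex Real

/-- translation of `τ` by `1` -/
theorem theta_add_one (z τ : ℂ) : jacobiTheta₂ z (τ + 1) = jacobiTheta₂ (z + 1 / 2) τ := by
  refine tsum_congr fun n => ?_
  simp only [jacobiTheta₂_term]
  have h1 : (2 * π * I * n * z + π * I * n ^ 2 * (τ + 1) : ℂ) =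
      (2 * π * I * n * (z + 1 / 2) + π * I * n ^ 2 * τ) + π * I * (n ^ 2 - n) := by ring
  have h2 : cexp (π * I * ((n : ℂ) ^ 2 - n)) = 1 := by
    obtain ⟨m, hm⟩ := Int.even_mul_succ_self (n - 1)
    have h3 : ((n : ℂ) ^ 2 - n) = 2 * (m : ℂ) := by
      have h4 : (n : ℤ) ^ 2 - n = 2 * m := by linear_combination hm
      exact_mod_cast h4
    rw [h3, show (π * I * (2 * (m : ℂ))) = m * (2 * π * I) by ring, exp_int_mul_two_pi_mul_I]
  rw [h1, Complex.exp_add, h2, mul_one]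

theorem theta'_add_one (z τ : ℂ) : jacobiTheta₂' z (τ + 1) = jacobiTheta₂' (z + 1 / 2) τ := by
  refine tsum_congr fun n => ?_
  simp only [jacobiTheta₂'_term, jacobiTheta₂_term]
  have h1 : (2 * π * I * n * z + π * I * n ^ 2 * (τ + 1) : ℂ) =
      (2 * π * I * n * (z + 1 / 2) + π * I * n ^ 2 * τ) + π * I * (n ^ 2 - n) := by ring
  have h2 : cexp (π * I * ((n : ℂ) ^ 2 - n)) = 1 := by
    obtain ⟨m, hm⟩ := Int.even_mul_succ_self (n - 1)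
    have h3 : ((n : ℂ) ^ 2 - n) = 2 * (m : ℂ) := by
      have h4 : (n : ℤ) ^ 2 - n = 2 * m := by linear_combination hm
      exact_mod_cast h4
    rw [h3, show (π * I * (2 * (m : ℂ))) = m * (2 * π * I) by ring, exp_int_mul_two_pi_mul_I]
  rw [h1, Complex.exp_add, h2, mul_one]

/-- theta function with characteristics (up to a constant) -/
def TH (u v : ℝ) (τ : ℂ) : ℂ := cexp (π * I * u ^ 2 * τ) * jacobiTheta₂ (u * τ + v) τ

/-- logarithmic derivative -/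
def G (u v : ℝ) (τ : ℂ) : ℂ :=
  jacobiTheta₂' (u * τ + v) τ / (2 * π * I * jacobiTheta₂ (u * τ + v) τ) + u

theorem TH_ne_zero_iff {u v : ℝ} {τ : ℂ} : TH u v τ ≠ 0 ↔ jacobiTheta₂ (u * τ + v) τ ≠ 0 := by
  rw [TH, mul_ne_zero_iff, and_iff_right (Complex.exp_ne_zero _)]

theorem TH_add_v (u v : ℝ) (τ : ℂ) : TH u (v + 1) τ = TH u v τ := by
  rw [TH, TH, ofReal_add, ofReal_one, ← add_assoc, jacobiTheta₂_add_left]

theorem G_add_v (u v : ℝ) (τ : ℂ) : G u (v + 1) τ = G u v τ := by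
  rw [G, G, ofReal_add, ofReal_one, ← add_assoc, jacobiTheta₂_add_left, jacobiTheta₂'_add_left]

theorem TH_add_u (u v : ℝ) (τ : ℂ) :
    TH (u + 1) v τ = cexp (-(2 * π * I * v)) * TH u v τ := by
  have h1 : (((u + 1 : ℝ) : ℂ) * τ + v) = (u * τ + v) + τ := by push_cast; ring
  rw [TH, TH, h1, jacobiTheta₂_add_left', ← mul_assoc, ← mul_assoc, ← Complex.exp_add,
    ← Complex.exp_add]
  congr 2
  push_cast
  ring

theorem two_pi_I_ne : (2 * π * I : ℂ) ≠ 0 := Complex.two_pi_I_ne_zero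

theorem G_add_u (u v : ℝ) (τ : ℂ) (h : TH u v τ ≠ 0) : G (u + 1) v τ = G u v τ := by
  have h0 := TH_ne_zero_iff.mp h
  have h1 : (((u + 1 : ℝ) : ℂ) * τ + v) = (u * τ + v) + τ := by push_cast; ring
  have h2 := two_pi_I_ne
  have h3 := Complex.exp_ne_zero (-π * I * (τ + 2 * (u * τ + v)))
  rw [G, G, h1, jacobiTheta₂_add_left', jacobiTheta₂'_add_left']
  obtain ⟨x, hx⟩ : ∃ x, x = jacobiTheta₂ (u * τ + v) τ := ⟨_, rfl⟩
  obtain ⟨y, hy⟩ : ∃ y, y = jacobiTheta₂' (u * τ + v) τ := ⟨_, rfl⟩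
  obtain ⟨e, he⟩ : ∃ e, e = cexp (-π * I * (τ + 2 * (u * τ + v))) := ⟨_, rfl⟩
  rw [← hx] at h0
  rw [← he] at h3
  rw [← hx, ← hy, ← he]
  have hpi : (π : ℂ) ≠ 0 := by exact_mod_cast Real.pi_ne_zero
  have hI := I_ne_zero
  push_cast
  field_simp
  ring

theorem TH_T (u v : ℝ) (τ : ℂ) :
    TH u v (τ + 1) = cexp (π * I * u ^ 2) * TH u (u + v + 1 / 2) τ := by
  have h1 : ((u : ℂ) * (τ + 1) + v) + 1 / 2 = u * τ + ((u + v + 1 / 2 : ℝ) : ℂ) := by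
    push_cast; ring
  rw [TH, TH, theta_add_one, h1, ← mul_assoc, ← Complex.exp_add]
  congr 2
  ring

theorem G_T (u v : ℝ) (τ : ℂ) : G u v (τ + 1) = G u (u + v + 1 / 2) τ := by
  have h1 : ((u : ℂ) * (τ + 1) + v) + 1 / 2 = u * τ + ((u + v + 1 / 2 : ℝ) : ℂ) := by
    push_cast; ring
  rw [G, G, theta_add_one, theta'_add_one, h1]

theorem sqrt_ne {τ : ℂ} (hτ : 0 < τ.im) : (-I * τ) ^ (1 / 2 : ℂ) ≠ 0 := by
  rw [Ne, Complex.cpow_eq_zero_iff]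
  rintro ⟨h, -⟩
  rcases mul_eq_zero.mp h with h | h
  · exact I_ne_zero (neg_eq_zero.mp h)
  · rw [h] at hτ
    simp at hτ

theorem tau_ne {τ : ℂ} (hτ : 0 < τ.im) : τ ≠ 0 := by
  rintro rfl
  simp at hτ

theorem TH_S (u v : ℝ) {τ : ℂ} (hτ : 0 < τ.im) :
    TH u v (-1 / τ) = (-I * τ) ^ (1 / 2 : ℂ) * cexp (-(2 * π * I * (u * v))) * TH v (-u) τ := by
  have h0 := tau_ne hτ
  have hs := sqrt_ne hτ
  have h1 : (u : ℂ) * (-1 / τ) + v = (v * τ + ((-u : ℝ) : ℂ)) / τ := by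
    push_cast
    field_simp
    ring
  have h2 := jacobiTheta₂_functional_equation (v * τ + ((-u : ℝ) : ℂ)) τ
  have h3 : jacobiTheta₂ ((v * τ + ((-u : ℝ) : ℂ)) / τ) (-1 / τ) = (-I * τ) ^ (1 / 2 : ℂ) *
      cexp (π * I * (v * τ + ((-u : ℝ) : ℂ)) ^ 2 / τ) *
        jacobiTheta₂ (v * τ + ((-u : ℝ) : ℂ)) τ := by
    rw [h2]
    have h4 : cexp (π * I * (v * τ + ((-u : ℝ) : ℂ)) ^ 2 / τ) *
        cexp (-π * I * (v * τ + ((-u : ℝ) : ℂ)) ^ 2 / τ) = 1 := by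
      rw [← Complex.exp_add, ← Complex.exp_zero]
      congr 1
      ring
    calc _ = 1 * jacobiTheta₂ ((v * τ + ((-u : ℝ) : ℂ)) / τ) (-1 / τ) := (one_mul _).symm
      _ = ((-I * τ) ^ (1 / 2 : ℂ) * (1 / (-I * τ) ^ (1 / 2 : ℂ))) *
          (cexp (π * I * (v * τ + ((-u : ℝ) : ℂ)) ^ 2 / τ) *
        cexp (-π * I * (v * τ + ((-u : ℝ) : ℂ)) ^ 2 / τ)) *
          jacobiTheta₂ ((v * τ + ((-u : ℝ) : ℂ)) / τ) (-1 / τ) := by
        rw [h4, mul_one_div_cancel hs, mul_one, one_mul]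
      _ = _ := by ring
  rw [TH, TH, h1, h3]
  have h5 : cexp (π * I * u ^ 2 * (-1 / τ)) * cexp (π * I * (v * τ + ((-u : ℝ) : ℂ)) ^ 2 / τ) =
      cexp (-(2 * π * I * (u * v))) * cexp (π * I * v ^ 2 * τ) := by
    rw [← Complex.exp_add, ← Complex.exp_add]
    congr 1
    push_cast
    field_simp
    ring
  linear_combination ((-I * τ) ^ (1 / 2 : ℂ) * jacobiTheta₂ (v * τ + ((-u : ℝ) : ℂ)) τ) * h5

theorem G_S (u v : ℝ) {τ : ℂ} (hτ : 0 < τ.im) (h : TH v (-u) τ ≠ 0) :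
    G u v (-1 / τ) = τ * G v (-u) τ := by
  have h0 := tau_ne hτ
  have hs := sqrt_ne hτ
  have hpi := two_pi_I_ne
  have hth := TH_ne_zero_iff.mp h
  have h1 : (u : ℂ) * (-1 / τ) + v = (v * τ + ((-u : ℝ) : ℂ)) / τ := by
    push_cast
    field_simp
    ring
  rw [G, G, h1]
  obtain ⟨z, hz⟩ : ∃ z : ℂ, z = v * τ + ((-u : ℝ) : ℂ) := ⟨_, rfl⟩
  rw [← hz] at hth ⊢
  have h2 := jacobiTheta₂_functional_equation z τ
  have h3 := jacobiTheta₂'_functional_equation z τ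
  obtain ⟨s, hs'⟩ : ∃ s, s = (-I * τ) ^ (1 / 2 : ℂ) := ⟨_, rfl⟩
  obtain ⟨e, he'⟩ : ∃ e, e = cexp (-π * I * z ^ 2 / τ) := ⟨_, rfl⟩
  have he : e ≠ 0 := he' ▸ Complex.exp_ne_zero _
  rw [← hs', ← he'] at h2 h3
  rw [← hs'] at hs
  have h4 : jacobiTheta₂ (z / τ) (-1 / τ) ≠ 0 := by
    intro h5
    rw [h5, mul_zero] at h2
    exact hth h2
  rw [h2, h3]
  have h6 : (u : ℂ) = v * τ - z := by rw [hz]; push_cast; ring
  rw [h6]
  obtain ⟨x, hx⟩ : ∃ x, x = jacobiTheta₂ (z / τ) (-1 / τ) := ⟨_, rfl⟩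
  obtain ⟨y, hy⟩ : ∃ y, y = jacobiTheta₂' (z / τ) (-1 / τ) := ⟨_, rfl⟩
  rw [← hx] at h4
  rw [← hx, ← hy]
  have hpi : (π : ℂ) ≠ 0 := by exact_mod_cast Real.pi_ne_zero
  have hI := I_ne_zero
  field_simp
  ring

end Fermat.Agent.DS2

end
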