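import Mathlib
import Fermat.Agent.DS2.Theta

/-!
# Theta functions with characteristics: expansions and behaviour at infinity
-/

set_option autoImplicit false

noncomputable section

namespace Fermat.Agent.DS2

open Complex Real Filter Topology
open UpperHalfPlane hiding I

/-- terms of the expansion -/
def ft (t v : ℝ) (τ : ℂ) (k : ℤ) : ℂ :=
  cexp (π * I * (k ^ 2 + 2 * k * t) * τ + 2 * π * I * (k - 1) * v)

/-- numerator of `G` -/
def NH (u v : ℝ) (τ : ℂ) : ℂ := cexp (π * I * u ^ 2 * τ) *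
  (jacobiTheta₂' (u * τ + v) τ / (2 * π * I) + u * jacobiTheta₂ (u * τ + v) τ)

theorem G_eq_div {u v : ℝ} {τ : ℂ} (h : TH u v τ ≠ 0) : G u v τ = NH u v τ / TH u v τ := by
  have h0 := TH_ne_zero_iff.mp h
  rw [eq_div_iff h, G, NH, TH]
  have hpi := two_pi_I_ne
  have h1 := Complex.exp_ne_zero (π * I * u ^ 2 * τ)
  have hpi' : (π : ℂ) ≠ 0 := by exact_mod_cast Real.pi_ne_zero
  have hI := I_ne_zero
  field_simp

theorem ft_succ (t v : ℝ) (τ : ℂ) (n : ℤ) : ft t v τ (n + 1) =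
    cexp (-(π * I * t ^ 2 * τ)) * (cexp (π * I * ((t + 1 : ℝ) : ℂ) ^ 2 * τ) *
      jacobiTheta₂_term n (((t + 1 : ℝ) : ℂ) * τ + v) τ) := by
  rw [jacobiTheta₂_term, ft, ← Complex.exp_add, ← Complex.exp_add]
  congr 1
  push_cast
  ring

theorem hasSum_TH (t v : ℝ) {τ : ℂ} (hτ : 0 < τ.im) :
    HasSum (ft t v τ) (cexp (-(π * I * t ^ 2 * τ)) * TH (t + 1) v τ) := by
  rw [← (Equiv.addRight (1 : ℤ)).hasSum_iff]
  have h1 := ((hasSum_jacobiTheta₂_term (((t + 1 : ℝ) : ℂ) * τ + v) hτ).mul_left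
    (cexp (π * I * ((t + 1 : ℝ) : ℂ) ^ 2 * τ))).mul_left (cexp (-(π * I * t ^ 2 * τ)))
  have h2 : (ft t v τ ∘ (Equiv.addRight (1 : ℤ))) = fun n => cexp (-(π * I * t ^ 2 * τ)) *
      (cexp (π * I * ((t + 1 : ℝ) : ℂ) ^ 2 * τ) *
        jacobiTheta₂_term n (((t + 1 : ℝ) : ℂ) * τ + v) τ) := funext fun n => ft_succ t v τ n
  rw [h2]
  exact h1

theorem hasSum_NH (t v : ℝ) {τ : ℂ} (hτ : 0 < τ.im) :
    HasSum (fun k : ℤ => ((k : ℂ) + t) * ft t v τ k)
      (cexp (-(π * I * t ^ 2 * τ)) * NH (t + 1) v τ) := by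
  rw [← (Equiv.addRight (1 : ℤ)).hasSum_iff]
  have h0 := (hasSum_jacobiTheta₂'_term (((t + 1 : ℝ) : ℂ) * τ + v) hτ).mul_right (2 * π * I)⁻¹
  have h0' := (hasSum_jacobiTheta₂_term (((t + 1 : ℝ) : ℂ) * τ + v) hτ).mul_left
    ((t + 1 : ℝ) : ℂ)
  have h1 := ((h0.add h0').mul_left
    (cexp (π * I * ((t + 1 : ℝ) : ℂ) ^ 2 * τ))).mul_left (cexp (-(π * I * t ^ 2 * τ)))
  have h3 : ((fun k : ℤ => ((k : ℂ) + t) * ft t v τ k) ∘ (Equiv.addRight (1 : ℤ))) =
      fun n => cexp (-(π * I * t ^ 2 * τ)) * (cexp (π * I * ((t + 1 : ℝ) : ℂ) ^ 2 * τ) *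
        (jacobiTheta₂'_term n (((t + 1 : ℝ) : ℂ) * τ + v) τ * (2 * π * I)⁻¹ +
          ((t + 1 : ℝ) : ℂ) * jacobiTheta₂_term n (((t + 1 : ℝ) : ℂ) * τ + v) τ)) := by
    funext n
    have h2 := ft_succ t v τ n
    have hpi := two_pi_I_ne
    change (((n + 1 : ℤ) : ℂ) + t) * ft t v τ (n + 1) = _
    rw [h2, jacobiTheta₂'_term]
    obtain ⟨x, hx⟩ : ∃ x, x = jacobiTheta₂_term n (((t + 1 : ℝ) : ℂ) * τ + v) τ := ⟨_, rfl⟩
    rw [← hx]
    have hpi' : (π : ℂ) ≠ 0 := by exact_mod_cast Real.pi_ne_zero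
    have hI := I_ne_zero
    push_cast
    field_simp
    ring
  rw [h3]
  exact h1

/-- norm of the terms -/
theorem norm_ft (t v : ℝ) (τ : ℂ) (k : ℤ) :
    ‖ft t v τ k‖ = Real.exp (-π * ((k : ℝ) ^ 2 + 2 * k * t) * τ.im) := by
  rw [ft, Complex.norm_exp]
  congr 1
  have h1 : (π * I * ((k : ℂ) ^ 2 + 2 * k * t) * τ + 2 * π * I * (k - 1) * v : ℂ) =
      ((π * ((k : ℝ) ^ 2 + 2 * k * t) : ℝ) : ℂ) * (I * τ) +
        ((2 * π * ((k : ℝ) - 1) * v : ℝ) : ℂ) * I := by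
    push_cast
    ring
  rw [h1, Complex.add_re, Complex.re_ofReal_mul, Complex.re_ofReal_mul]
  simp

theorem quad_nonneg {t : ℝ} (ht : |t| ≤ 1 / 2) (k : ℤ) :
    (k : ℝ) ^ 2 - |(k : ℝ)| ≤ (k : ℝ) ^ 2 + 2 * k * t := by
  have h1 : -(|(k : ℝ)|) ≤ 2 * k * t := by
    have h2 : |2 * k * t| ≤ |(k : ℝ)| := by
      rw [abs_mul, abs_mul]
      have := abs_nonneg (k : ℝ)
      simp only [Nat.abs_ofNat]
      nlinarith
    have h3 := neg_abs_le (2 * k * t)
    linarith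
  linarith

theorem sq_sub_abs_nonneg (k : ℤ) : 0 ≤ (k : ℝ) ^ 2 - |(k : ℝ)| := by
  rcases eq_or_ne k 0 with rfl | hk
  · simp
  · have h1 : (1 : ℝ) ≤ |(k : ℝ)| := by
      have : (1 : ℤ) ≤ |k| := Int.one_le_abs hk
      exact_mod_cast this
    have h2 : (k : ℝ) ^ 2 = |(k : ℝ)| ^ 2 := (sq_abs _).symm
    rw [h2]
    nlinarith

/-- the bound -/
def bd (k : ℤ) : ℝ := Real.exp (-π * ((k : ℝ) ^ 2 - |(k : ℝ)|))

theorem norm_ft_le {t : ℝ} (ht : |t| ≤ 1 / 2) (v : ℝ) {τ : ℂ} (hτ : 1 ≤ τ.im) (k : ℤ) :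
    ‖ft t v τ k‖ ≤ bd k := by
  rw [norm_ft, bd]
  apply Real.exp_le_exp.mpr
  have h1 := quad_nonneg ht k
  have h2 := sq_sub_abs_nonneg k
  have h3 := Real.pi_pos
  have h4 : (k : ℝ) ^ 2 - |(k : ℝ)| ≤ ((k : ℝ) ^ 2 + 2 * k * t) * τ.im := by nlinarith
  nlinarith

theorem summable_bd : Summable bd := by
  have h := summable_pow_mul_jacobiTheta₂_term_bound (1 / 2) one_pos 0
  refine h.congr fun k => ?_
  rw [bd, pow_zero, one_mul]
  congr 1
  push_cast
  ring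

theorem summable_bd' : Summable fun k : ℤ => |(k : ℝ)| * bd k := by
  have h := summable_pow_mul_jacobiTheta₂_term_bound (1 / 2) one_pos 1
  refine h.congr fun k => ?_
  rw [bd, pow_one]
  push_cast
  congr 2
  ring

/-- the limit of the terms -/
def ftlim (t v : ℝ) (k : ℤ) : ℂ :=
  if (k : ℝ) ^ 2 + 2 * k * t = 0 then cexp (2 * π * I * (k - 1) * v) else 0

theorem tendsto_ft {t : ℝ} (ht : |t| ≤ 1 / 2) (v : ℝ) (k : ℤ) :
    Tendsto (fun τ : ℍ => ft t v τ k) atImInfty (𝓝 (ftlim t v k)) := by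
  rw [ftlim]
  split_ifs with h
  · refine Tendsto.congr (fun τ => ?_) tendsto_const_nhds
    have h1 : ((k : ℂ) ^ 2 + 2 * k * t) = 0 := by exact_mod_cast h
    rw [ft, h1, mul_zero, zero_mul, zero_add]
  · rw [tendsto_zero_iff_norm_tendsto_zero]
    simp_rw [norm_ft]
    have h0 : 0 < (k : ℝ) ^ 2 + 2 * k * t := lt_of_le_of_ne
      ((sq_sub_abs_nonneg k).trans (quad_nonneg ht k)) (Ne.symm h)
    have h1 : Tendsto (fun τ : ℍ => -π * ((k : ℝ) ^ 2 + 2 * k * t) * (τ : ℂ).im) atImInfty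
        atBot := by
      refine Tendsto.const_mul_atTop_of_neg ?_ ?_
      · have := Real.pi_pos
        nlinarith
      · exact tendsto_comap
    exact Real.tendsto_exp_atBot.comp h1

theorem atImInfty_one_le : ∀ᶠ τ : ℍ in atImInfty, 1 ≤ (τ : ℂ).im :=
  (tendsto_comap (f := UpperHalfPlane.im)).eventually (eventually_ge_atTop 1)

theorem tendsto_TH {t : ℝ} (ht : |t| ≤ 1 / 2) (v : ℝ) :
    Tendsto (fun τ : ℍ => cexp (-(π * I * t ^ 2 * τ)) * TH (t + 1) v τ) atImInfty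
      (𝓝 (∑' k, ftlim t v k)) := by
  have h1 : Tendsto (fun τ : ℍ => ∑' k, ft t v τ k) atImInfty (𝓝 (∑' k, ftlim t v k)) := by
    refine tendsto_tsum_of_dominated_convergence summable_bd (tendsto_ft ht v) ?_
    filter_upwards [atImInfty_one_le] with τ hτ k
    exact norm_ft_le ht v hτ k
  exact h1.congr fun τ => (hasSum_TH t v τ.im_pos).tsum_eq

theorem tendsto_NH {t : ℝ} (ht : |t| ≤ 1 / 2) (v : ℝ) :
    Tendsto (fun τ : ℍ => cexp (-(π * I * t ^ 2 * τ)) * NH (t + 1) v τ) atImInfty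
      (𝓝 (∑' k : ℤ, ((k : ℂ) + t) * ftlim t v k)) := by
  have hb : Summable fun k : ℤ => |(k : ℝ)| * bd k + |t| * bd k :=
    summable_bd'.add (summable_bd.mul_left _)
  have h1 : Tendsto (fun τ : ℍ => ∑' k : ℤ, ((k : ℂ) + t) * ft t v τ k) atImInfty
      (𝓝 (∑' k : ℤ, ((k : ℂ) + t) * ftlim t v k)) := by
    refine tendsto_tsum_of_dominated_convergence hb (fun k => (tendsto_ft ht v k).const_mul _) ?_
    filter_upwards [atImInfty_one_le] with τ hτ k
    rw [norm_mul]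
    have h2 := norm_ft_le ht v hτ k
    have h3 : ‖(k : ℂ) + t‖ ≤ |(k : ℝ)| + |t| := by
      refine (norm_add_le _ _).trans ?_
      rw [Complex.norm_intCast, Complex.norm_real, Real.norm_eq_abs]
    have h4 : 0 ≤ ‖ft t v τ k‖ := norm_nonneg _
    have h5 : 0 ≤ |(k : ℝ)| + |t| := by positivity
    calc _ ≤ (|(k : ℝ)| + |t|) * bd k := mul_le_mul h3 h2 h4 h5
      _ = _ := by ring
  exact h1.congr fun τ => (hasSum_NH t v τ.im_pos).tsum_eq

/-- the limit is not zero -/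
theorem tsum_ftlim_ne {t v : ℝ} (ht : -1 / 2 ≤ t) (ht' : t < 1 / 2)
    (hv : t = -1 / 2 → ∀ n : ℤ, v ≠ n + 1 / 2) : ∑' k, ftlim t v k ≠ 0 := by
  by_cases h : t = -1 / 2
  · have h1 : ∀ k : ℤ, k ∉ ({0, 1} : Finset ℤ) → ftlim t v k = 0 := by
      intro k hk
      rw [ftlim, if_neg]
      rw [h]
      intro h2
      apply hk
      have h3 : (k : ℝ) * (k - 1) = 0 := by linear_combination h2
      rw [Finset.mem_insert, Finset.mem_singleton]
      rcases mul_eq_zero.mp h3 with h4 | h4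
      · exact Or.inl (by exact_mod_cast h4)
      · exact Or.inr (by
          have : (k : ℝ) = 1 := by linarith
          exact_mod_cast this)
    rw [tsum_eq_sum h1, Finset.sum_pair zero_ne_one, ftlim, ftlim, if_pos (by simp),
      if_pos (by rw [h]; push_cast; ring)]
    intro h2
    have h3 : cexp (2 * π * I * (((1 : ℤ) : ℂ) - 1) * v) = 1 := by
      rw [Int.cast_one, sub_self, mul_zero, zero_mul, Complex.exp_zero]
    rw [h3] at h2
    have h4 : cexp (2 * π * I * (((0 : ℤ) : ℂ) - 1) * v) * cexp (π * I) = 1 := by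
      rw [Complex.exp_pi_mul_I]
      linear_combination -h2
    rw [← Complex.exp_add, Complex.exp_eq_one_iff] at h4
    obtain ⟨n, hn⟩ := h4
    apply hv h (-n)
    have h5 : (2 * π * I : ℂ) * (((0 : ℤ) - 1) * v + 1 / 2) = (2 * π * I) * n := by
      linear_combination hn
    have h6 := mul_left_cancel₀ two_pi_I_ne h5
    have h7 : -v + 1 / 2 = (n : ℝ) := by
      have : (((-v + 1 / 2 : ℝ)) : ℂ) = (((n : ℝ)) : ℂ) := by
        push_cast
        linear_combination h6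
      exact_mod_cast this
    push_cast
    linarith
  · have h1 : ∀ k : ℤ, k ≠ 0 → ftlim t v k = 0 := by
      intro k hk
      rw [ftlim, if_neg]
      intro h2
      have h3 : (k : ℝ) * (k + 2 * t) = 0 := by linear_combination h2
      rcases mul_eq_zero.mp h3 with h4 | h4
      · exact hk (by exact_mod_cast h4)
      · have h5 : (-1 : ℝ) < k := by linarith
        have h6 : (k : ℝ) < 1 := by
          have : -1 / 2 < t := lt_of_le_of_ne ht (Ne.symm h)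
          linarith
        have h7 : (-1 : ℤ) < k := by exact_mod_cast h5
        have h8 : k < (1 : ℤ) := by exact_mod_cast h6
        omega
    rw [tsum_eq_single 0 h1, ftlim, if_pos (by simp)]
    exact Complex.exp_ne_zero _

end Fermat.Agent.DS2

end
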