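import Mathlib
import Fermat.Agent.DS2.Asym

/-!
# Theta functions do not vanish at torsion points
-/

set_option autoImplicit false

noncomputable section

namespace Fermat.Agent.DS2

open Complex Real Filter Topology MatrixGroups ModularForm
open UpperHalfPlane hiding I
open scoped Manifold

section diff

theorem differentiableAt_TH (u v : ℝ) {τ : ℂ} (hτ : 0 < τ.im) :
    DifferentiableAt ℂ (TH u v) τ := by
  unfold TH
  refine DifferentiableAt.mul (by fun_prop) ?_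
  have h1 : DifferentiableAt ℂ (fun p : ℂ × ℂ => jacobiTheta₂ p.1 p.2) (u * τ + v, τ) :=
    (hasFDerivAt_jacobiTheta₂ _ hτ).differentiableAt
  exact h1.comp τ (f := fun τ : ℂ => ((u : ℂ) * τ + v, τ)) (by fun_prop)

theorem mdiff_TH (u v : ℝ) : MDiff (fun τ : ℍ => TH u v τ) := by
  rw [UpperHalfPlane.mdifferentiable_iff]
  intro z hz
  refine DifferentiableAt.differentiableWithinAt ?_
  refine (differentiableAt_TH u v hz).congr_of_eventuallyEq ?_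
  filter_upwards [isOpen_upperHalfPlaneSet.mem_nhds hz] with w hw
  simp [ofComplex_apply_of_im_pos hw]

end diff

section TM

variable (ℓ : ℕ) [NeZero ℓ]

/-- power of the theta function at a torsion point -/
def TM (i j : ℤ) (τ : ℂ) : ℂ := (TH ((i : ℝ) / ℓ + 1 / 2) ((j : ℝ) / ℓ + 1 / 2) τ) ^ (8 * ℓ ^ 2)

variable {ℓ}

theorem l_ne : (ℓ : ℝ) ≠ 0 := Nat.cast_ne_zero.mpr (NeZero.ne ℓ)

theorem TM_add_right (i j : ℤ) (τ : ℂ) : TM ℓ i (j + ℓ) τ = TM ℓ i j τ := by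
  have h1 : ((j + ℓ : ℤ) : ℝ) / ℓ + 1 / 2 = ((j : ℝ) / ℓ + 1 / 2) + 1 := by
    have := l_ne (ℓ := ℓ)
    push_cast
    field_simp
    ring
  rw [TM, TM, h1, TH_add_v]

theorem exp_pow_eq_one {x : ℂ} {m : ℕ} {n : ℤ} (h : (m : ℂ) * x = 2 * π * I * n) :
    cexp x ^ m = 1 := by
  rw [← Complex.exp_nat_mul, h, show (2 * π * I * n : ℂ) = n * (2 * π * I) by ring,
    exp_int_mul_two_pi_mul_I]

theorem TM_add_left (i j : ℤ) (τ : ℂ) : TM ℓ (i + ℓ) j τ = TM ℓ i j τ := by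
  have h0 := l_ne (ℓ := ℓ)
  have h0' : (ℓ : ℂ) ≠ 0 := Nat.cast_ne_zero.mpr (NeZero.ne ℓ)
  have h1 : ((i + ℓ : ℤ) : ℝ) / ℓ + 1 / 2 = ((i : ℝ) / ℓ + 1 / 2) + 1 := by
    push_cast
    field_simp
    ring
  rw [TM, TM, h1, TH_add_u, mul_pow, exp_pow_eq_one (n := -(4 * ℓ * (2 * j + ℓ))), one_mul]
  push_cast
  field_simp
  ring

theorem TM_T (i j : ℤ) (τ : ℂ) : TM ℓ i j (τ + 1) = TM ℓ i (i + j) τ := by
  have h0 := l_ne (ℓ := ℓ)
  have h0' : (ℓ : ℂ) ≠ 0 := Nat.cast_ne_zero.mpr (NeZero.ne ℓ)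
  have h1 : ((i : ℝ) / ℓ + 1 / 2) + ((j : ℝ) / ℓ + 1 / 2) + 1 / 2 =
      (((i + j : ℤ) : ℝ) / ℓ + 1 / 2) + 1 := by
    push_cast
    field_simp
    ring
  rw [TM, TM, TH_T, h1, TH_add_v, mul_pow, exp_pow_eq_one (n := (2 * i + ℓ) ^ 2), one_mul]
  push_cast
  field_simp
  ring

theorem TM_S (i j : ℤ) {τ : ℂ} (hτ : 0 < τ.im) :
    TM ℓ i j (-1 / τ) = τ ^ (4 * ℓ ^ 2) * TM ℓ j (-i) τ := by
  have h0 := l_ne (ℓ := ℓ)
  have h0' : (ℓ : ℂ) ≠ 0 := Nat.cast_ne_zero.mpr (NeZero.ne ℓ)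
  have h1 : (((-i : ℤ) : ℝ) / ℓ + 1 / 2) = (-((i : ℝ) / ℓ + 1 / 2)) + 1 := by
    push_cast
    ring
  have h2 : ((-I * τ) ^ (1 / 2 : ℂ)) ^ (8 * ℓ ^ 2) = τ ^ (4 * ℓ ^ 2) := by
    have h3 : ((-I * τ) ^ (1 / 2 : ℂ)) ^ 2 = -I * τ := by
      rw [← Complex.cpow_nat_mul]
      norm_num
    rw [show 8 * ℓ ^ 2 = 2 * (4 * ℓ ^ 2) by ring, pow_mul, h3, mul_pow, pow_mul (-I)]
    have h4 : (-I) ^ 4 = 1 := by
      rw [neg_pow, I_pow_four]
      norm_num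
    rw [h4, one_pow, one_mul]
  rw [TM, TM, TH_S _ _ hτ, h1, TH_add_v, mul_pow, mul_pow, h2,
    exp_pow_eq_one (n := -(2 * (2 * i + ℓ) * (2 * j + ℓ))), mul_one]
  push_cast
  field_simp
  ring

theorem TM_congr {i j i' j' : ℤ} (hi : (i : ZMod ℓ) = i') (hj : (j : ZMod ℓ) = j') (τ : ℂ) :
    TM ℓ i j τ = TM ℓ i' j' τ := by
  have h1 : Function.Periodic (fun i : ℤ => TM ℓ i j τ) (ℓ : ℤ) := fun i => TM_add_left i j τ
  have h2 : Function.Periodic (fun j : ℤ => TM ℓ i' j τ) (ℓ : ℤ) := fun j => TM_add_right i' j τ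
  obtain ⟨a, ha⟩ := (ZMod.intCast_eq_intCast_iff_dvd_sub _ _ _).mp hi
  obtain ⟨b, hb⟩ := (ZMod.intCast_eq_intCast_iff_dvd_sub _ _ _).mp hj
  have e1 : i' = i + a * ℓ := by linear_combination ha
  have e2 : j' = j + b * ℓ := by linear_combination hb
  have h3 := h1.int_mul a i
  have h4 := h2.int_mul b j
  beta_reduce at h3 h4
  rw [Int.cast_id] at h3 h4
  rw [← h3, ← e1, e2]
  exact h4.symm

end TM

section P

variable (ℓ : ℕ) [NeZero ℓ]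

open scoped Classical in
/-- the index set -/
def XX : Finset (ZMod ℓ × ZMod ℓ) := Finset.univ.erase 0

/-- product over the nonzero torsion points -/
def PP (τ : ℂ) : ℂ := ∏ x ∈ XX ℓ, TM ℓ (x.1.val : ℤ) (x.2.val : ℤ) τ

variable {ℓ}

theorem mem_XX {x : ZMod ℓ × ZMod ℓ} : x ∈ XX ℓ ↔ x ≠ 0 := by
  rw [XX, Finset.mem_erase, and_iff_left (Finset.mem_univ _)]

theorem card_XX : (XX ℓ).card = ℓ ^ 2 - 1 := by
  rw [XX, Finset.card_erase_of_mem (Finset.mem_univ _), Finset.card_univ, Fintype.card_prod,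
    ZMod.card, sq]

theorem TM_val (i j : ℤ) (τ : ℂ) :
    TM ℓ (((i : ZMod ℓ).val : ℕ) : ℤ) (((j : ZMod ℓ).val : ℕ) : ℤ) τ = TM ℓ i j τ :=
  TM_congr (by push_cast; rw [ZMod.natCast_zmod_val]) (by push_cast; rw [ZMod.natCast_zmod_val]) τ

theorem PP_T (τ : ℂ) : PP ℓ (τ + 1) = PP ℓ τ := by
  rw [PP, PP]
  refine Finset.prod_bij (fun x _ => (x.1, x.1 + x.2)) ?_ ?_ ?_ ?_
  · intro x hx
    rw [mem_XX] at hx ⊢
    intro h
    apply hx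
    have h1 := congrArg Prod.fst h
    have h2 := congrArg Prod.snd h
    simp only [Prod.fst_zero, Prod.snd_zero] at h1 h2
    rw [h1, zero_add] at h2
    exact Prod.ext h1 h2
  · rintro ⟨a, b⟩ - ⟨c, d⟩ - h
    have h1 := congrArg Prod.fst h
    have h2 := congrArg Prod.snd h
    simp only at h1 h2
    rw [h1] at h2
    exact Prod.ext h1 (add_left_cancel h2)
  · rintro ⟨a, b⟩ hx
    refine ⟨(a, b - a), ?_, by simp⟩
    rw [mem_XX] at hx ⊢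
    intro h
    apply hx
    have h1 := congrArg Prod.fst h
    have h2 := congrArg Prod.snd h
    simp only [Prod.fst_zero, Prod.snd_zero] at h1 h2
    rw [h1, sub_zero] at h2
    exact Prod.ext h1 h2
  · rintro ⟨a, b⟩ -
    rw [TM_T]
    refine TM_congr rfl ?_ τ
    push_cast
    rw [ZMod.natCast_zmod_val, ZMod.natCast_zmod_val, ZMod.natCast_zmod_val]

theorem PP_S {τ : ℂ} (hτ : 0 < τ.im) :
    PP ℓ (-1 / τ) = τ ^ (4 * ℓ ^ 2 * (ℓ ^ 2 - 1)) * PP ℓ τ := by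
  have h0 : τ ^ (4 * ℓ ^ 2 * (ℓ ^ 2 - 1)) = ∏ _x ∈ XX ℓ, τ ^ (4 * ℓ ^ 2) := by
    rw [Finset.prod_const, card_XX, ← pow_mul]
  rw [PP, PP, h0]
  have h1 : ∏ x ∈ XX ℓ, TM ℓ (x.1.val : ℤ) (x.2.val : ℤ) τ =
      ∏ x ∈ XX ℓ, TM ℓ (x.2.val : ℤ) (-(x.1.val : ℤ)) τ := by
    refine (Finset.prod_bij (fun x _ => (x.2, -x.1)) ?_ ?_ ?_ ?_).symm
    · intro x hx
      rw [mem_XX] at hx ⊢
      intro h
      apply hx
      have h1 := congrArg Prod.fst h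
      have h2 := congrArg Prod.snd h
      simp only [Prod.fst_zero, Prod.snd_zero] at h1 h2
      exact Prod.ext (neg_eq_zero.mp h2) h1
    · rintro ⟨a, b⟩ - ⟨c, d⟩ - h
      have h1 := congrArg Prod.fst h
      have h2 := congrArg Prod.snd h
      simp only at h1 h2
      exact Prod.ext (neg_inj.mp h2) h1
    · rintro ⟨a, b⟩ hx
      refine ⟨(-b, a), ?_, by simp⟩
      rw [mem_XX] at hx ⊢
      intro h
      apply hx
      have h1 := congrArg Prod.fst h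
      have h2 := congrArg Prod.snd h
      simp only [Prod.fst_zero, Prod.snd_zero] at h1 h2
      exact Prod.ext h2 (neg_eq_zero.mp h1)
    · rintro ⟨a, b⟩ -
      refine TM_congr rfl ?_ τ
      push_cast
      rw [ZMod.natCast_zmod_val, ZMod.natCast_zmod_val]
  rw [h1, ← Finset.prod_mul_distrib]
  exact Finset.prod_congr rfl fun x _ => TM_S _ _ hτ

end P

section limit

variable {ℓ : ℕ} [NeZero ℓ]

theorem sum_range_sq (n : ℕ) (L : ℝ) (hL : L ≠ 0) :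
    ∑ j ∈ Finset.range n, ((j : ℝ) / L - 1 / 2) ^ 2 =
      n * (n - 1) * (2 * n - 1) / (6 * L ^ 2) - n * (n - 1) / (2 * L) + n / 4 := by
  induction n with
  | zero => simp
  | succ n ih =>
    rw [Finset.sum_range_succ, ih]
    push_cast
    field_simp
    ring

theorem sum_zmod (g : ℕ → ℝ) : ∑ i : ZMod ℓ, g i.val = ∑ j ∈ Finset.range ℓ, g j := by
  obtain ⟨n, rfl⟩ : ∃ n, ℓ = n + 1 := Nat.exists_eq_succ_of_ne_zero (NeZero.ne ℓ)
  exact Fin.sum_univ_eq_sum_range g (n + 1)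

/-- the `t`-parameter -/
def tt (x : ZMod ℓ × ZMod ℓ) : ℝ := (x.1.val : ℝ) / ℓ - 1 / 2

theorem sum_tt : ∑ x ∈ XX ℓ, tt x ^ 2 = ((ℓ : ℝ) ^ 2 - 1) / 12 := by
  have h0 := l_ne (ℓ := ℓ)
  rw [XX, Finset.sum_erase_eq_sub (Finset.mem_univ _), Fintype.sum_prod_type]
  have h1 : ∀ i : ZMod ℓ, ∑ j : ZMod ℓ, tt (i, j) ^ 2 = ℓ * ((i.val : ℝ) / ℓ - 1 / 2) ^ 2 := by
    intro i
    simp only [tt]
    rw [Finset.sum_const, Finset.card_univ, ZMod.card, nsmul_eq_mul]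
  simp only [h1]
  rw [← Finset.mul_sum, sum_zmod (fun j => ((j : ℝ) / ℓ - 1 / 2) ^ 2), sum_range_sq _ _ h0]
  have h2 : tt (0 : ZMod ℓ × ZMod ℓ) = -1 / 2 := by
    simp only [tt, Prod.fst_zero, ZMod.val_zero]
    norm_num
  rw [h2]
  field_simp
  ring

theorem tt_le (x : ZMod ℓ × ZMod ℓ) : -1 / 2 ≤ tt x ∧ tt x < 1 / 2 := by
  have h0 : (0 : ℝ) < ℓ := Nat.cast_pos.mpr (NeZero.pos ℓ)
  have h1 : (0 : ℝ) ≤ (x.1.val : ℝ) / ℓ := by positivity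
  have h2 : (x.1.val : ℝ) / ℓ < 1 := by
    rw [div_lt_one h0]
    exact_mod_cast ZMod.val_lt x.1
  unfold tt
  constructor <;> linarith

theorem tt_abs (x : ZMod ℓ × ZMod ℓ) : |tt x| ≤ 1 / 2 := by
  obtain ⟨h1, h2⟩ := tt_le x
  rw [abs_le]
  constructor <;> linarith

/-- the limit at infinity -/
def cc (x : ZMod ℓ × ZMod ℓ) : ℂ := ∑' k, ftlim (tt x) ((x.2.val : ℝ) / ℓ + 1 / 2) k

theorem cc_ne {x : ZMod ℓ × ZMod ℓ} (hx : x ≠ 0) : cc x ≠ 0 := by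
  have h0 : (0 : ℝ) < ℓ := Nat.cast_pos.mpr (NeZero.pos ℓ)
  obtain ⟨h1, h2⟩ := tt_le x
  refine tsum_ftlim_ne h1 h2 fun h3 n hn => hx ?_
  have h4 : (x.1.val : ℝ) / ℓ = 0 := by
    unfold tt at h3
    linarith
  have h5 : x.1 = 0 := by
    rw [div_eq_zero_iff] at h4
    have h6 : (x.1.val : ℝ) = 0 := h4.resolve_right h0.ne'
    exact (ZMod.val_eq_zero _).mp (by exact_mod_cast h6)
  have h6 : (x.2.val : ℝ) = n * ℓ := by
    have : (x.2.val : ℝ) / ℓ = n := by linarith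
    rwa [div_eq_iff h0.ne'] at this
  have h7 : (x.2.val : ℤ) = n * ℓ := by exact_mod_cast h6
  have h8 : x.2 = 0 := by
    have h9 := congrArg (fun z : ℤ => (z : ZMod ℓ)) h7
    simp only [Int.cast_natCast, ZMod.natCast_zmod_val, Int.cast_mul, ZMod.natCast_self,
      mul_zero] at h9
    exact h9
  exact Prod.ext h5 h8

omit [NeZero ℓ] in
theorem tt_add_one (x : ZMod ℓ × ZMod ℓ) : tt x + 1 = (((x.1.val : ℕ) : ℤ) : ℝ) / ℓ + 1 / 2 := by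
  unfold tt
  push_cast
  ring

theorem tendsto_TM (x : ZMod ℓ × ZMod ℓ) :
    Tendsto (fun τ : ℍ => cexp (-(π * I * tt x ^ 2 * τ)) ^ (8 * ℓ ^ 2) *
      TM ℓ (x.1.val : ℤ) (x.2.val : ℤ) τ) atImInfty (𝓝 (cc x ^ (8 * ℓ ^ 2))) := by
  refine ((tendsto_TH (tt_abs x) ((x.2.val : ℝ) / ℓ + 1 / 2)).pow (8 * ℓ ^ 2)).congr fun τ => ?_
  rw [mul_pow, TM, tt_add_one]
  push_cast
  rfl

/-- the exponent -/
def NN (ℓ : ℕ) : ℕ := ℓ ^ 2 * (ℓ ^ 2 - 1)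

theorem prod_exp (τ : ℂ) : (∏ x ∈ XX ℓ, cexp (-(π * I * tt x ^ 2 * τ)) ^ (8 * ℓ ^ 2)) ^ 3 =
    (Function.Periodic.qParam 1 τ ^ NN ℓ)⁻¹ := by
  have h1 : ∀ x : ZMod ℓ × ZMod ℓ, cexp (-(π * I * tt x ^ 2 * τ)) ^ (8 * ℓ ^ 2) =
      cexp ((-(8 * ℓ ^ 2 * π * I * τ)) * ((tt x ^ 2 : ℝ) : ℂ)) := by
    intro x
    rw [← Complex.exp_nat_mul]
    congr 1
    push_cast
    ring
  simp only [h1]
  rw [← Complex.exp_sum, ← Finset.mul_sum, ← Complex.ofReal_sum, sum_tt, ← Complex.exp_nat_mul,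
    Function.Periodic.qParam, ← Complex.exp_nat_mul, ← Complex.exp_neg]
  congr 1
  have h2 : 1 ≤ ℓ ^ 2 := Nat.one_le_pow _ _ (NeZero.pos ℓ)
  rw [NN]
  push_cast [Nat.cast_sub h2]
  ring

theorem tendsto_PP : Tendsto (fun τ : ℍ => PP ℓ τ ^ 3 *
      (Function.Periodic.qParam 1 (τ : ℂ) ^ NN ℓ)⁻¹) atImInfty
      (𝓝 ((∏ x ∈ XX ℓ, cc x ^ (8 * ℓ ^ 2)) ^ 3)) := by
  refine ((tendsto_finsetProd (XX ℓ) fun x _ => tendsto_TM x).pow 3).congr fun τ => ?_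
  rw [Finset.prod_mul_distrib, mul_pow, prod_exp, PP, mul_comm]

/-- the quotient by the discriminant -/
def FF (ℓ : ℕ) [NeZero ℓ] (τ : ℍ) : ℂ := PP ℓ τ ^ 3 / discriminant τ ^ NN ℓ

theorem tendsto_FF : Tendsto (FF ℓ) atImInfty
    (𝓝 ((∏ x ∈ XX ℓ, cc x ^ (8 * ℓ ^ 2)) ^ 3)) := by
  have h1 := (tendsto_PP (ℓ := ℓ)).div (tendsto_atImInfty_tprod_one_sub_eta_q_pow.pow (NN ℓ))
    (by rw [one_pow]; exact one_ne_zero)
  rw [one_pow, div_one] at h1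
  refine h1.congr fun τ => ?_
  rw [FF, discriminant_eq_q_prod, mul_pow]
  rw [div_mul_eq_div_div, div_eq_mul_inv (PP ℓ τ ^ 3)]
  rfl

theorem lim_ne : (∏ x ∈ XX ℓ, cc x ^ (8 * ℓ ^ 2)) ^ 3 ≠ 0 :=
  pow_ne_zero _ (Finset.prod_ne_zero_iff.mpr fun _ hx => pow_ne_zero _ (cc_ne (mem_XX.mp hx)))

theorem PP_T' (τ : ℍ) : PP ℓ ((ModularGroup.T • τ : ℍ) : ℂ) = PP ℓ τ := by
  rw [UpperHalfPlane.modular_T_smul, UpperHalfPlane.coe_vadd]
  have h1 : ((1 : ℝ) : ℂ) + (τ : ℂ) = τ + 1 := by push_cast; ring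
  rw [h1, PP_T]

theorem PP_S' (τ : ℍ) : PP ℓ ((ModularGroup.S • τ : ℍ) : ℂ) =
    (τ : ℂ) ^ (4 * ℓ ^ 2 * (ℓ ^ 2 - 1)) * PP ℓ τ := by
  rw [UpperHalfPlane.modular_S_smul, ← PP_S τ.im_pos]
  congr 1
  change (-(τ : ℂ))⁻¹ = _
  rw [neg_div, one_div, inv_neg]

theorem disc_T (τ : ℍ) : discriminant (ModularGroup.T • τ) = discriminant τ := by
  have h := congrFun discriminant_T_invariant τ
  rw [SL_slash_apply, denom] at h
  simpa [ModularGroup.T] using h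

theorem disc_S (τ : ℍ) : discriminant (ModularGroup.S • τ) = (τ : ℂ) ^ 12 * discriminant τ := by
  have h := congrFun discriminant_S_invariant τ
  rw [SL_slash_apply, denom] at h
  have h2 : discriminant (ModularGroup.S • τ) * ((τ : ℂ) ^ 12)⁻¹ = discriminant τ := by
    simpa [ModularGroup.S] using h
  have h3 : (τ : ℂ) ^ 12 ≠ 0 := pow_ne_zero _ τ.ne_zero
  rw [← h2, mul_comm ((τ : ℂ) ^ 12), mul_assoc, inv_mul_cancel₀ h3, mul_one]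

theorem FF_T (τ : ℍ) : FF ℓ (ModularGroup.T • τ) = FF ℓ τ := by
  rw [FF, FF, PP_T', disc_T]

theorem FF_S (τ : ℍ) : FF ℓ (ModularGroup.S • τ) = FF ℓ τ := by
  have h3 : (τ : ℂ) ≠ 0 := τ.ne_zero
  rw [FF, FF, PP_S', disc_S, mul_pow, mul_pow, ← pow_mul, ← pow_mul]
  have h1 : 4 * ℓ ^ 2 * (ℓ ^ 2 - 1) * 3 = 12 * NN ℓ := by
    rw [NN]; ring
  rw [h1, mul_div_mul_left _ _ (pow_ne_zero _ h3)]

theorem slash_zero_eq (f : ℍ → ℂ) (γ : SL(2, ℤ)) (h : ∀ τ, f (γ • τ) = f τ) :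
    f ∣[(0 : ℤ)] γ = f := by
  ext τ
  rw [SL_slash_apply, neg_zero, zpow_zero, mul_one, h]

theorem FF_slash (γ : SL(2, ℤ)) : FF ℓ ∣[(0 : ℤ)] γ = FF ℓ :=
  SlashInvariantForm.slash_action_generators_SL2Z (slash_zero_eq _ _ FF_S) (slash_zero_eq _ _ FF_T) γ

theorem mdiff_disc : MDiff discriminant := CuspForm.discriminant.holo'

theorem mdiff_PP : MDiff (fun τ : ℍ => PP ℓ τ) := by
  rw [UpperHalfPlane.mdifferentiable_iff]
  intro z hz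
  refine DifferentiableAt.differentiableWithinAt ?_
  have h1 : DifferentiableAt ℂ (PP ℓ) z := by
    unfold PP TM
    exact DifferentiableAt.fun_finsetProd fun x _ => (differentiableAt_TH _ _ hz).pow _
  refine h1.congr_of_eventuallyEq ?_
  filter_upwards [isOpen_upperHalfPlaneSet.mem_nhds hz] with w hw
  simp [ofComplex_apply_of_im_pos hw]

theorem mdiff_FF : MDiff (FF ℓ) := by
  have h1 := UpperHalfPlane.mdifferentiable_iff.mp (mdiff_PP (ℓ := ℓ))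
  have h2 := UpperHalfPlane.mdifferentiable_iff.mp mdiff_disc
  rw [UpperHalfPlane.mdifferentiable_iff]
  exact (h1.pow 3).div (h2.pow (NN ℓ)) fun z _ => pow_ne_zero _ (discriminant_ne_zero _)

/-- the quotient as a modular form of weight `0` and level one -/
def FFm (ℓ : ℕ) [NeZero ℓ] : ModularForm 𝒮ℒ 0 where
  toFun := FF ℓ
  slash_action_eq' A hA := by
    obtain ⟨A, rfl⟩ := hA
    exact FF_slash A
  holo' := mdiff_FF
  bdd_at_cusps' hc := by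
    rw [Subgroup.IsArithmetic.isCusp_iff_isCusp_SL2Z] at hc
    rw [OnePoint.isBoundedAt_iff_forall_SL2Z hc]
    intro γ _
    rw [FF_slash]
    exact (tendsto_FF (ℓ := ℓ)).isBigO_one ℝ

theorem FF_ne_zero (τ : ℍ) : FF ℓ τ ≠ 0 := by
  obtain ⟨c, hc⟩ := ModularFormClass.levelOne_weight_zero_const (FFm ℓ)
  have h1 : ∀ τ, FF ℓ τ = c := fun τ => congrFun hc τ
  have h2 : Tendsto (FF ℓ) atImInfty (𝓝 c) := by
    refine Tendsto.congr (fun τ => (h1 τ).symm) tendsto_const_nhds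
  have h3 : c = (∏ x ∈ XX ℓ, cc x ^ (8 * ℓ ^ 2)) ^ 3 := tendsto_nhds_unique h2 tendsto_FF
  rw [h1, h3]
  exact lim_ne

/-- **non-vanishing of theta functions at torsion points** -/
theorem TH_ne_zero {i j : ℤ} (h : ¬ ((ℓ : ℤ) ∣ i ∧ (ℓ : ℤ) ∣ j)) {τ : ℂ} (hτ : 0 < τ.im) :
    TH ((i : ℝ) / ℓ + 1 / 2) ((j : ℝ) / ℓ + 1 / 2) τ ≠ 0 := by
  intro h0
  have h1 : TM ℓ i j τ = 0 := by
    rw [TM, h0, zero_pow]
    have := NeZero.ne ℓ
    positivity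
  apply FF_ne_zero (ℓ := ℓ) ⟨τ, hτ⟩
  have h2 : PP ℓ ((⟨τ, hτ⟩ : ℍ) : ℂ) = 0 := by
    rw [PP]
    refine Finset.prod_eq_zero (i := ((i : ZMod ℓ), (j : ZMod ℓ))) ?_ ?_
    · rw [mem_XX]
      intro h3
      apply h
      have h4 := congrArg Prod.fst h3
      have h5 := congrArg Prod.snd h3
      simp only [Prod.fst_zero, Prod.snd_zero] at h4 h5
      exact ⟨(ZMod.intCast_zmod_eq_zero_iff_dvd _ _).mp h4,
        (ZMod.intCast_zmod_eq_zero_iff_dvd _ _).mp h5⟩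
    · rw [TM_val]
      exact h1
  rw [FF, h2, zero_pow three_ne_zero, zero_div]

end limit

end Fermat.Agent.DS2

end
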