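import Mathlib
import Fermat.Agent.DS2.NonVan

/-!
# Eisenstein series of weight one attached to torsion points
-/

set_option autoImplicit false

noncomputable section

namespace Fermat.Agent.DS2

open Complex Real Filter Topology MatrixGroups ModularForm
open UpperHalfPlane hiding I
open scoped Manifold

section diff

theorem norm_ft_le' {t T : ℝ} (ht : |t| ≤ 1 / 2) (hT : 0 < T) (v : ℝ) {τ : ℂ} (hτ : T < τ.im)
    (k : ℤ) : ‖ft t v τ k‖ ≤ Real.exp (-π * (T * (k : ℝ) ^ 2 - 2 * (T / 2) * |(k : ℝ)|)) := by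
  rw [norm_ft]
  apply Real.exp_le_exp.mpr
  have h1 := quad_nonneg ht k
  have h2 := sq_sub_abs_nonneg k
  have h3 := Real.pi_pos
  have h4 : T * ((k : ℝ) ^ 2 - |(k : ℝ)|) ≤ ((k : ℝ) ^ 2 + 2 * k * t) * τ.im := by
    have h5 : T * ((k : ℝ) ^ 2 - |(k : ℝ)|) ≤ T * ((k : ℝ) ^ 2 + 2 * k * t) :=
      mul_le_mul_of_nonneg_left h1 hT.le
    have h6 : T * ((k : ℝ) ^ 2 + 2 * k * t) ≤ τ.im * ((k : ℝ) ^ 2 + 2 * k * t) :=
      mul_le_mul_of_nonneg_right hτ.le (h2.trans h1)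
    linarith
  nlinarith

theorem differentiableAt_NH {t : ℝ} (ht : |t| ≤ 1 / 2) (v : ℝ) {τ : ℂ} (hτ : 0 < τ.im) :
    DifferentiableAt ℂ (NH (t + 1) v) τ := by
  obtain ⟨T, hT, hTτ⟩ := exists_between hτ
  let U : Set ℂ := {z | T < z.im}
  have hU : IsOpen U := isOpen_lt continuous_const Complex.continuous_im
  have hs1 := summable_pow_mul_jacobiTheta₂_term_bound (T / 2) hT 1
  have hs0 := summable_pow_mul_jacobiTheta₂_term_bound (T / 2) hT 0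
  have hd : DifferentiableOn ℂ (fun w => ∑' k : ℤ, ((k : ℂ) + t) * ft t v w k) U := by
    refine differentiableOn_tsum_of_summable_norm (hs1.add (hs0.mul_left (1 / 2)))
      (fun k => ?_) hU fun k w hw => ?_
    · unfold ft
      fun_prop
    · rw [norm_mul]
      have h2 := norm_ft_le' ht hT v hw k
      have h3 : ‖(k : ℂ) + t‖ ≤ |(k : ℝ)| + 1 / 2 := by
        refine (norm_add_le _ _).trans ?_
        rw [Complex.norm_intCast, Complex.norm_real, Real.norm_eq_abs]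
        linarith
      have h4 : 0 ≤ ‖ft t v w k‖ := norm_nonneg _
      have h5 : 0 ≤ |(k : ℝ)| + 1 / 2 := by positivity
      calc _ ≤ (|(k : ℝ)| + 1 / 2) *
            Real.exp (-π * (T * (k : ℝ) ^ 2 - 2 * (T / 2) * |(k : ℝ)|)) :=
            mul_le_mul h3 h2 h4 h5
        _ = _ := by push_cast; ring
  have hd2 : DifferentiableOn ℂ (fun w => cexp (π * I * t ^ 2 * w) *
      ∑' k : ℤ, ((k : ℂ) + t) * ft t v w k) U := by
    refine DifferentiableOn.mul (by fun_prop) hd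
  refine (hd2.differentiableAt (hU.mem_nhds hTτ)).congr_of_eventuallyEq ?_
  filter_upwards [hU.mem_nhds hTτ] with w hw
  have hw' : 0 < w.im := hT.trans hw
  rw [(hasSum_NH t v hw').tsum_eq, ← mul_assoc, ← Complex.exp_add, add_neg_cancel,
    Complex.exp_zero, one_mul]

end diff

section EE

variable (ℓ : ℕ) [NeZero ℓ]

/-- Eisenstein series of weight one -/
def EE (i j : ℤ) (τ : ℍ) : ℂ := G ((i : ℝ) / ℓ + 1 / 2) ((j : ℝ) / ℓ + 1 / 2) τ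

variable {ℓ}

/-- nonzero torsion points -/
def NZ (ℓ : ℕ) (i j : ℤ) : Prop := ¬ ((ℓ : ℤ) ∣ i ∧ (ℓ : ℤ) ∣ j)

theorem EE_add_right (i j : ℤ) (τ : ℍ) : EE ℓ i (j + ℓ) τ = EE ℓ i j τ := by
  have h1 : ((j + ℓ : ℤ) : ℝ) / ℓ + 1 / 2 = ((j : ℝ) / ℓ + 1 / 2) + 1 := by
    have := l_ne (ℓ := ℓ)
    push_cast
    field_simp
    ring
  rw [EE, EE, h1, G_add_v]

theorem EE_add_left {i j : ℤ} (h : NZ ℓ i j) (τ : ℍ) : EE ℓ (i + ℓ) j τ = EE ℓ i j τ := by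
  have h1 : ((i + ℓ : ℤ) : ℝ) / ℓ + 1 / 2 = ((i : ℝ) / ℓ + 1 / 2) + 1 := by
    have := l_ne (ℓ := ℓ)
    push_cast
    field_simp
    ring
  rw [EE, EE, h1, G_add_u _ _ _ (TH_ne_zero h τ.im_pos)]

omit [NeZero ℓ] in
theorem NZ_congr {i j i' j' : ℤ} (hi : (i : ZMod ℓ) = i') (hj : (j : ZMod ℓ) = j') :
    NZ ℓ i j ↔ NZ ℓ i' j' := by
  rw [NZ, NZ, ← ZMod.intCast_zmod_eq_zero_iff_dvd, ← ZMod.intCast_zmod_eq_zero_iff_dvd,
    ← ZMod.intCast_zmod_eq_zero_iff_dvd, ← ZMod.intCast_zmod_eq_zero_iff_dvd, hi, hj]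

theorem EE_congr {i j i' j' : ℤ} (h : NZ ℓ i j) (hi : (i : ZMod ℓ) = i') (hj : (j : ZMod ℓ) = j')
    (τ : ℍ) : EE ℓ i j τ = EE ℓ i' j' τ := by
  have h2 : Function.Periodic (fun j : ℤ => EE ℓ i' j τ) (ℓ : ℤ) := fun j => EE_add_right i' j τ
  obtain ⟨a, ha⟩ := (ZMod.intCast_eq_intCast_iff_dvd_sub _ _ _).mp hi
  obtain ⟨b, hb⟩ := (ZMod.intCast_eq_intCast_iff_dvd_sub _ _ _).mp hj
  have e1 : i' = i + a * ℓ := by linear_combination ha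
  have e2 : j' = j + b * ℓ := by linear_combination hb
  have h4 := h2.int_mul b j
  beta_reduce at h4
  rw [Int.cast_id] at h4
  rw [e2, h4, e1]
  have h3 : ∀ a : ℤ, EE ℓ (i + a * ℓ) j τ = EE ℓ i j τ := by
    intro a
    induction a with
    | zero => rw [zero_mul, add_zero]
    | succ n ih =>
      rw [← ih, add_mul, one_mul, ← add_assoc]
      refine EE_add_left ((NZ_congr ?_ rfl).mp h) τ
      push_cast
      rw [ZMod.natCast_self, mul_zero, add_zero]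
    | pred n ih =>
      rw [← ih]
      have h5 : i + -(n : ℤ) * ℓ = (i + (-(n : ℤ) - 1) * ℓ) + ℓ := by ring
      rw [h5]
      refine (EE_add_left ((NZ_congr ?_ rfl).mp h) τ).symm
      push_cast
      rw [ZMod.natCast_self, mul_zero, add_zero]
  exact (h3 a).symm

theorem EE_T (i j : ℤ) (τ : ℍ) : EE ℓ i j (ModularGroup.T • τ) = EE ℓ i (i + j) τ := by
  have h0 := l_ne (ℓ := ℓ)
  have h1 : ((i : ℝ) / ℓ + 1 / 2) + ((j : ℝ) / ℓ + 1 / 2) + 1 / 2 =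
      (((i + j : ℤ) : ℝ) / ℓ + 1 / 2) + 1 := by
    push_cast
    field_simp
    ring
  have h2 : ((1 : ℝ) : ℂ) + (τ : ℂ) = τ + 1 := by push_cast; ring
  rw [EE, EE, UpperHalfPlane.modular_T_smul, UpperHalfPlane.coe_vadd, h2, G_T, h1, G_add_v]

omit [NeZero ℓ] in
theorem NZ_S {i j : ℤ} (h : NZ ℓ i j) : NZ ℓ j (-i) := fun h' => h ⟨(dvd_neg.mp h'.2), h'.1⟩

theorem EE_S {i j : ℤ} (h : NZ ℓ i j) (τ : ℍ) :
    EE ℓ i j (ModularGroup.S • τ) = τ * EE ℓ j (-i) τ := by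
  have h0 := l_ne (ℓ := ℓ)
  have h1 : (((-i : ℤ) : ℝ) / ℓ + 1 / 2) = (-((i : ℝ) / ℓ + 1 / 2)) + 1 := by
    push_cast
    ring
  have h2 : ((ModularGroup.S • τ : ℍ) : ℂ) = -1 / τ := by
    rw [UpperHalfPlane.modular_S_smul]
    change (-(τ : ℂ))⁻¹ = _
    rw [neg_div, one_div, inv_neg]
  have h3 := TH_ne_zero (NZ_S h) τ.im_pos
  rw [h1, TH_add_v] at h3
  rw [EE, EE, h2, G_S _ _ τ.im_pos h3, h1, G_add_v]

theorem EE_slash_T {i j : ℤ} : (EE ℓ i j) ∣[(1 : ℤ)] ModularGroup.T = EE ℓ i (i + j) := by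
  ext τ
  rw [SL_slash_apply, EE_T, denom]
  simp [ModularGroup.T]

theorem EE_slash_S {i j : ℤ} (h : NZ ℓ i j) :
    (EE ℓ i j) ∣[(1 : ℤ)] ModularGroup.S = EE ℓ j (-i) := by
  ext τ
  have h3 : (τ : ℂ) ≠ 0 := τ.ne_zero
  rw [SL_slash_apply, EE_S h, denom]
  have h4 : (τ : ℂ) * EE ℓ j (-i) τ * (τ : ℂ)⁻¹ = EE ℓ j (-i) τ := by
    rw [mul_comm (τ : ℂ), mul_assoc, mul_inv_cancel₀ h3, mul_one]
  simpa [ModularGroup.S] using h4

theorem det_eq (γ : SL(2, ℤ)) : γ 0 0 * γ 1 1 - γ 0 1 * γ 1 0 = 1 := by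
  have h := γ.det_coe
  rwa [Matrix.det_fin_two] at h

omit [NeZero ℓ] in
theorem NZ_mul {i j : ℤ} (h : NZ ℓ i j) (γ : SL(2, ℤ)) :
    NZ ℓ (i * γ 0 0 + j * γ 1 0) (i * γ 0 1 + j * γ 1 1) := by
  rintro ⟨⟨a, ha⟩, ⟨b, hb⟩⟩
  have h1 := det_eq γ
  refine h ⟨⟨a * γ 1 1 - b * γ 1 0, ?_⟩, ⟨b * γ 0 0 - a * γ 0 1, ?_⟩⟩
  · linear_combination (-i) * h1 + γ 1 1 * ha - γ 1 0 * hb
  · linear_combination (-j) * h1 + γ 0 0 * hb - γ 0 1 * ha

/-- the action on row vectors -/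
theorem EE_slash {i j : ℤ} (h : NZ ℓ i j) (γ : SL(2, ℤ)) :
    (EE ℓ i j) ∣[(1 : ℤ)] γ = EE ℓ (i * γ 0 0 + j * γ 1 0) (i * γ 0 1 + j * γ 1 1) := by
  have key : γ ∈ Subgroup.closure ({ModularGroup.S, ModularGroup.T} : Set SL(2, ℤ)) := by
    rw [SpecialLinearGroup.SL2Z_generators]
    trivial
  induction key using Subgroup.closure_induction generalizing i j with
  | mem x hx =>
    rcases hx with rfl | rfl
    · rw [EE_slash_S h]
      simp [ModularGroup.S]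
    · rw [EE_slash_T]
      simp [ModularGroup.T]
  | one =>
    rw [SlashAction.slash_one]
    simp
  | mul x y _ _ hx hy =>
    rw [SlashAction.slash_mul, hx h, hy (NZ_mul h x)]
    have h1 : ∀ a b, (x * y) a b = x a 0 * y 0 b + x a 1 * y 1 b := fun a b => by
      rw [Matrix.SpecialLinearGroup.coe_mul, Matrix.mul_apply, Fin.sum_univ_two]
    rw [h1, h1, h1, h1]
    congr 1 <;> ring
  | inv x _ hx =>
    have h1 : ∀ a b, (x⁻¹) a b = Matrix.adjugate (x : Matrix (Fin 2) (Fin 2) ℤ) a b :=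
      fun a b => by rw [Matrix.SpecialLinearGroup.coe_inv]
    have h2 := hx (NZ_mul h x⁻¹)
    have h3 := congrArg (fun f : ℍ → ℂ => f ∣[(1 : ℤ)] x⁻¹) h2
    beta_reduce at h3
    rw [← SlashAction.slash_mul, mul_inv_cancel, SlashAction.slash_one] at h3
    rw [h3]
    have h4 := det_eq x
    have e1 : (i * x⁻¹ 0 0 + j * x⁻¹ 1 0) * x 0 0 + (i * x⁻¹ 0 1 + j * x⁻¹ 1 1) * x 1 0 = i := by
      rw [h1, h1, h1, h1, Matrix.adjugate_fin_two]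
      simp
      linear_combination i * h4
    have e2 : (i * x⁻¹ 0 0 + j * x⁻¹ 1 0) * x 0 1 + (i * x⁻¹ 0 1 + j * x⁻¹ 1 1) * x 1 1 = j := by
      rw [h1, h1, h1, h1, Matrix.adjugate_fin_two]
      simp
      linear_combination j * h4
    rw [e1, e2]

/-- integers as representatives -/
theorem EE_val {i j : ℤ} (h : NZ ℓ i j) (τ : ℍ) :
    EE ℓ i j τ = EE ℓ ((i : ZMod ℓ).val : ℤ) ((j : ZMod ℓ).val : ℤ) τ :=
  EE_congr h (by push_cast; rw [ZMod.natCast_zmod_val]) (by push_cast; rw [ZMod.natCast_zmod_val]) τ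

theorem EE_eq_div {x : ZMod ℓ × ZMod ℓ} (hx : x ≠ 0) (τ : ℍ) :
    EE ℓ (x.1.val : ℤ) (x.2.val : ℤ) τ =
      NH (tt x + 1) ((x.2.val : ℝ) / ℓ + 1 / 2) τ / TH (tt x + 1) ((x.2.val : ℝ) / ℓ + 1 / 2) τ ∧
      TH (tt x + 1) ((x.2.val : ℝ) / ℓ + 1 / 2) τ ≠ 0 := by
  have h1 : NZ ℓ (x.1.val : ℤ) (x.2.val : ℤ) := by
    rintro ⟨h2, h3⟩
    apply hx
    have h4 := (ZMod.intCast_zmod_eq_zero_iff_dvd _ _).mpr h2
    have h5 := (ZMod.intCast_zmod_eq_zero_iff_dvd _ _).mpr h3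
    rw [Int.cast_natCast, ZMod.natCast_zmod_val] at h4 h5
    exact Prod.ext h4 h5
  have h2 := TH_ne_zero h1 τ.im_pos
  rw [EE, G_eq_div h2]
  rw [← tt_add_one] at h2 ⊢
  exact ⟨rfl, h2⟩

theorem mdiff_EE {i j : ℤ} (h : NZ ℓ i j) : MDiff (EE ℓ i j) := by
  let x : ZMod ℓ × ZMod ℓ := ((i : ZMod ℓ), (j : ZMod ℓ))
  have hx : x ≠ 0 := by
    intro h0
    have h4 := congrArg Prod.fst h0
    have h5 := congrArg Prod.snd h0
    exact h ⟨(ZMod.intCast_zmod_eq_zero_iff_dvd _ _).mp h4,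
      (ZMod.intCast_zmod_eq_zero_iff_dvd _ _).mp h5⟩
  have h1 : EE ℓ i j = fun τ : ℍ => NH (tt x + 1) ((x.2.val : ℝ) / ℓ + 1 / 2) τ /
      TH (tt x + 1) ((x.2.val : ℝ) / ℓ + 1 / 2) τ := by
    funext τ
    rw [EE_val h]
    exact (EE_eq_div hx τ).1
  rw [h1, UpperHalfPlane.mdifferentiable_iff]
  intro z hz
  refine DifferentiableAt.differentiableWithinAt ?_
  have h2 := (differentiableAt_NH (tt_abs x) ((x.2.val : ℝ) / ℓ + 1 / 2) hz).div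
    (differentiableAt_TH (tt x + 1) ((x.2.val : ℝ) / ℓ + 1 / 2) hz) (EE_eq_div hx ⟨z, hz⟩).2
  refine h2.congr_of_eventuallyEq ?_
  filter_upwards [isOpen_upperHalfPlaneSet.mem_nhds hz] with w hw
  simp [ofComplex_apply_of_im_pos hw]

theorem bdd_EE {i j : ℤ} (h : NZ ℓ i j) : IsBoundedAtImInfty (EE ℓ i j) := by
  let x : ZMod ℓ × ZMod ℓ := ((i : ZMod ℓ), (j : ZMod ℓ))
  have hx : x ≠ 0 := by
    intro h0
    have h4 := congrArg Prod.fst h0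
    have h5 := congrArg Prod.snd h0
    exact h ⟨(ZMod.intCast_zmod_eq_zero_iff_dvd _ _).mp h4,
      (ZMod.intCast_zmod_eq_zero_iff_dvd _ _).mp h5⟩
  have h1 := (tendsto_NH (tt_abs x) ((x.2.val : ℝ) / ℓ + 1 / 2)).div
    (tendsto_TH (tt_abs x) ((x.2.val : ℝ) / ℓ + 1 / 2)) (cc_ne hx)
  refine (h1.congr fun τ => ?_).isBigO_one ℝ
  rw [EE_val h]
  have h2 := Complex.exp_ne_zero (-(π * I * tt x ^ 2 * τ))
  rw [(EE_eq_div hx τ).1]
  exact mul_div_mul_left _ _ h2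

omit [NeZero ℓ] in
theorem NZ_zero {d : ℤ} (hd : ¬ (ℓ : ℤ) ∣ d) : NZ ℓ 0 d := fun h => hd h.2

theorem EE_slash_Gamma0 {d d' : ℤ} (hd : ¬ (ℓ : ℤ) ∣ d) {γ : SL(2, ℤ)}
    (hγ : γ ∈ CongruenceSubgroup.Gamma0 ℓ) (h : (d' : ZMod ℓ) = d * (γ 1 1 : ZMod ℓ)) :
    (EE ℓ 0 d) ∣[(1 : ℤ)] γ = EE ℓ 0 d' := by
  rw [EE_slash (NZ_zero hd)]
  funext τ
  refine EE_congr (NZ_mul (NZ_zero hd) γ) ?_ ?_ τ
  · rw [CongruenceSubgroup.Gamma0_mem] at hγ
    push_cast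
    rw [hγ, zero_mul, mul_zero, add_zero]
  · rw [h]
    push_cast
    rw [zero_mul, zero_add]

open CongruenceSubgroup in
/-- Eisenstein series of weight one on `Γ₁(ℓ)` -/
def GE (d : ℤ) (hd : ¬ (ℓ : ℤ) ∣ d) : ModularForm ((Gamma1 ℓ).map (Matrix.SpecialLinearGroup.mapGL ℝ)) 1 where
  toFun := EE ℓ 0 d
  slash_action_eq' A hA := by
    obtain ⟨γ, hγ, rfl⟩ := hA
    have h1 := (Gamma1_mem ℓ γ).mp hγ
    exact EE_slash_Gamma0 hd ((Gamma0_mem).mpr h1.2.2) (by rw [h1.2.1, mul_one])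
  holo' := mdiff_EE (NZ_zero hd)
  bdd_at_cusps' hc := by
    rw [Subgroup.IsArithmetic.isCusp_iff_isCusp_SL2Z] at hc
    rw [OnePoint.isBoundedAt_iff_forall_SL2Z hc]
    intro γ _
    have h2 := EE_slash (NZ_zero hd) γ
    rw [h2]
    exact bdd_EE (NZ_mul (NZ_zero hd) γ)

end EE

end Fermat.Agent.DS2

end
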