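import Mathlib
import Fermat.Agent.DS2.Form

/-!
# `q`-expansions of the Eisenstein series of weight one
-/

set_option autoImplicit false

noncomputable section

namespace Fermat.Agent.DS2

open Complex Real Filter Topology MatrixGroups ModularForm
open UpperHalfPlane hiding I
open scoped Manifold

section alg

/-- multiples of `ϖ` by algebraic integers -/
def JJ (ϖ : ℂ) : AddSubgroup ℂ where
  carrier := {x | ∃ y : ℂ, IsIntegral ℤ y ∧ x = ϖ * y}
  add_mem' := by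
    rintro _ _ ⟨y, hy, rfl⟩ ⟨z, hz, rfl⟩
    exact ⟨y + z, hy.add hz, by ring⟩
  zero_mem' := ⟨0, isIntegral_zero, by ring⟩
  neg_mem' := by
    rintro _ ⟨y, hy, rfl⟩
    exact ⟨-y, hy.neg, by ring⟩

theorem mem_JJ {ϖ x : ℂ} : x ∈ JJ ϖ ↔ ∃ y : ℂ, IsIntegral ℤ y ∧ x = ϖ * y := Iff.rfl

theorem JJ.mul_mem {ϖ x y : ℂ} (hx : x ∈ JJ ϖ) (hy : IsIntegral ℤ y) : x * y ∈ JJ ϖ := by
  obtain ⟨z, hz, rfl⟩ := hx
  exact ⟨z * y, hz.mul hy, by ring⟩

theorem JJ.mul_mem' {ϖ x y : ℂ} (hx : IsIntegral ℤ x) (hy : y ∈ JJ ϖ) : x * y ∈ JJ ϖ := by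
  rw [mul_comm]
  exact JJ.mul_mem hy hx

theorem JJ.isIntegral {ϖ x : ℂ} (hϖ : IsIntegral ℤ ϖ) (hx : x ∈ JJ ϖ) : IsIntegral ℤ x := by
  obtain ⟨z, hz, rfl⟩ := hx
  exact hϖ.mul hz

open PowerSeries in
/-- division of power series -/
theorem coeff_sub_mem {ϖ : ℂ} {X A B : PowerSeries ℂ} (h : X * A = B)
    (hA : ∀ m, IsIntegral ℤ (coeff m A)) (hA0 : coeff 0 A = 1)
    (hB : ∀ m, coeff m B - 2 * coeff m A ∈ JJ ϖ) (m : ℕ) :
    coeff m X - (if m = 0 then 2 else 0) ∈ JJ ϖ := by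
  induction m using Nat.strong_induction_on with
  | _ m ih =>
    have h1 : (X - C 2) * A = B - C 2 * A := by rw [sub_mul, h]
    have h2 := congrArg (coeff m) h1
    rw [coeff_mul, map_sub, coeff_C_mul] at h2
    have h3 : ∀ i, coeff i (X - C (2 : ℂ)) = coeff i X - (if i = 0 then 2 else 0) := by
      intro i
      rw [map_sub, coeff_C]
    rw [Finset.Nat.sum_antidiagonal_eq_sum_range_succ_mk, Finset.sum_range_succ, Nat.sub_self, hA0,
      mul_one, h3] at h2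
    have h4 : coeff m X - (if m = 0 then 2 else 0) = (coeff m B - 2 * coeff m A) -
        ∑ x ∈ Finset.range m, coeff x (X - C (2 : ℂ)) * coeff (m - x) A := by
      rw [← h2]
      ring
    rw [h4]
    refine (JJ ϖ).sub_mem (hB m) ((JJ ϖ).sum_mem fun i hi => ?_)
    rw [h3]
    exact JJ.mul_mem (ih i (Finset.mem_range.mp hi)) (hA _)

/-- coefficients of the denominator -/
def sa (w : ℂ) (n : ℕ) : ℂ := (-1) ^ n * ((w⁻¹) ^ n * ∑ i ∈ Finset.range (2 * n + 1), w ^ i)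

/-- coefficients of the numerator -/
def sb (w : ℂ) (n : ℕ) : ℂ := (-1) ^ n * ((2 * n + 1) * (w ^ (n + 1) + (w⁻¹) ^ n))

theorem sub_one_mul_sa {w : ℂ} (hw : w ≠ 0) (n : ℕ) :
    (w - 1) * sa w n = (-1) ^ n * (w ^ (n + 1) - (w⁻¹) ^ n) := by
  have h1 := mul_geom_sum w (2 * n + 1)
  rw [sa]
  calc _ = (-1) ^ n * ((w⁻¹) ^ n * ((w - 1) * ∑ i ∈ Finset.range (2 * n + 1), w ^ i)) := by ring
    _ = _ := by
      rw [h1, mul_sub, mul_one]
      congr 2
      rw [show 2 * n + 1 = n + (n + 1) by ring, pow_add w n, ← mul_assoc, ← mul_pow,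
        inv_mul_cancel₀ hw, one_pow, one_mul]

variable {w : ℂ}

theorem isIntegral_pow (h : IsIntegral ℤ w) (n : ℕ) : IsIntegral ℤ (w ^ n) := h.pow n

theorem pow_sub_one_mem (h : IsIntegral ℤ w) (n : ℕ) : w ^ n - 1 ∈ JJ (w - 1) := by
  refine ⟨∑ i ∈ Finset.range n, w ^ i, IsIntegral.sum _ fun i _ => h.pow i, ?_⟩
  rw [mul_geom_sum]

theorem inv_pow_sub_one_mem (h : IsIntegral ℤ w) (h' : IsIntegral ℤ w⁻¹) (hw : w ≠ 0) (n : ℕ) :
    (w⁻¹) ^ n - 1 ∈ JJ (w - 1) := by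
  obtain ⟨y, hy, hy'⟩ := pow_sub_one_mem h n
  refine ⟨-(y * (w⁻¹) ^ n), (hy.mul (h'.pow n)).neg, ?_⟩
  have h1 : w ^ n * (w⁻¹) ^ n = 1 := by rw [← mul_pow, mul_inv_cancel₀ hw, one_pow]
  linear_combination (-(w⁻¹) ^ n) * hy' + h1

theorem isIntegral_neg_one_pow (n : ℕ) : IsIntegral ℤ ((-1 : ℂ) ^ n) :=
  (isIntegral_one.neg).pow n

theorem isIntegral_sa (h : IsIntegral ℤ w) (h' : IsIntegral ℤ w⁻¹) (n : ℕ) :
    IsIntegral ℤ (sa w n) :=
  (isIntegral_neg_one_pow n).mul ((h'.pow n).mul (IsIntegral.sum _ fun i _ => h.pow i))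

theorem sb_sub_sa (h : IsIntegral ℤ w) (h' : IsIntegral ℤ w⁻¹) (hw : w ≠ 0) (n : ℕ) :
    sb w n - 2 * sa w n ∈ JJ (w - 1) := by
  have h1 : sb w n - 2 * sa w n = (-1) ^ n * ((2 * n + 1) * (w ^ (n + 1) + (w⁻¹) ^ n) -
      2 * ((w⁻¹) ^ n * ∑ i ∈ Finset.range (2 * n + 1), w ^ i)) := by
    rw [sa, sb]
    ring
  rw [h1]
  refine JJ.mul_mem' (isIntegral_neg_one_pow n) ?_
  have h2 := pow_sub_one_mem h (n + 1)
  have h3 := inv_pow_sub_one_mem h h' hw n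
  have h4 : (∑ i ∈ Finset.range (2 * n + 1), w ^ i) - (2 * n + 1) ∈ JJ (w - 1) := by
    have h5 : (∑ i ∈ Finset.range (2 * n + 1), w ^ i) - (2 * n + 1) =
        ∑ i ∈ Finset.range (2 * n + 1), (w ^ i - 1) := by
      rw [Finset.sum_sub_distrib, Finset.sum_const, Finset.card_range, nsmul_eq_mul, mul_one]
      push_cast
      ring
    rw [h5]
    exact (JJ _).sum_mem fun i _ => pow_sub_one_mem h i
  have hn : IsIntegral ℤ ((2 * n + 1 : ℂ)) := by
    have : ((2 * n + 1 : ℂ)) = ((2 * n + 1 : ℤ) : ℂ) := by push_cast; ring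
    rw [this]
    exact isIntegral_algebraMap
  have h2' : IsIntegral ℤ (2 : ℂ) := by
    have : (2 : ℂ) = ((2 : ℤ) : ℂ) := by push_cast; ring
    rw [this]
    exact isIntegral_algebraMap
  have h6 : (2 * n + 1) * (w ^ (n + 1) + (w⁻¹) ^ n) -
      2 * ((w⁻¹) ^ n * ∑ i ∈ Finset.range (2 * n + 1), w ^ i) =
      (2 * n + 1) * ((w ^ (n + 1) - 1) + ((w⁻¹) ^ n - 1)) -
        (2 * (w⁻¹) ^ n) * ((∑ i ∈ Finset.range (2 * n + 1), w ^ i) - (2 * n + 1)) -
        (2 * (2 * n + 1)) * ((w⁻¹) ^ n - 1) := by ring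
  rw [h6]
  exact (JJ _).sub_mem ((JJ _).sub_mem (JJ.mul_mem' hn ((JJ _).add_mem h2 h3))
    (JJ.mul_mem' (h2'.mul (h'.pow n)) h4)) (JJ.mul_mem' (h2'.mul hn) h3)

/-- triangular numbers -/
def Tri (n : ℕ) : ℕ := n * (n + 1) / 2

theorem two_mul_Tri (n : ℕ) : 2 * Tri n = n * (n + 1) :=
  Nat.mul_div_cancel' (Nat.even_mul_succ_self n).two_dvd

theorem Tri_injective : Function.Injective Tri := by
  intro a b h
  have h1 := two_mul_Tri a
  have h2 := two_mul_Tri b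
  rw [h] at h1
  have h3 : a * (a + 1) = b * (b + 1) := by omega
  rcases lt_trichotomy a b with h4 | h4 | h4
  · nlinarith
  · exact h4
  · nlinarith

/-- spreading a sequence over the triangular numbers -/
def spr (a : ℕ → ℂ) : PowerSeries ℂ := PowerSeries.mk (Function.extend Tri a 0)

theorem coeff_spr_Tri (a : ℕ → ℂ) (n : ℕ) : PowerSeries.coeff (Tri n) (spr a) = a n := by
  rw [spr, PowerSeries.coeff_mk, Tri_injective.extend_apply]

theorem coeff_spr_of_notMem (a : ℕ → ℂ) {m : ℕ} (hm : m ∉ Set.range Tri) :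
    PowerSeries.coeff m (spr a) = 0 := by
  rw [spr, PowerSeries.coeff_mk, Function.extend_apply' _ _ _ hm]
  rfl

theorem coeff_spr_cases (P : ℂ → Prop) (h0 : P 0) {a : ℕ → ℂ} (ha : ∀ n, P (a n)) (m : ℕ) :
    P (PowerSeries.coeff m (spr a)) := by
  by_cases hm : m ∈ Set.range Tri
  · obtain ⟨n, rfl⟩ := hm
    rw [coeff_spr_Tri]
    exact ha n
  · rw [coeff_spr_of_notMem a hm]
    exact h0

theorem hasSum_spr {a : ℕ → ℂ} {q s : ℂ} (h : HasSum (fun n => a n * q ^ Tri n) s) :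
    HasSum (fun m => PowerSeries.coeff m (spr a) • q ^ m) s := by
  have h1 : ((fun m => PowerSeries.coeff m (spr a) • q ^ m) ∘ Tri) = fun n => a n * q ^ Tri n := by
    funext n
    simp only [Function.comp_apply, coeff_spr_Tri, smul_eq_mul]
  rw [← Tri_injective.hasSum_iff, h1]
  · exact h
  · intro m hm
    rw [coeff_spr_of_notMem a hm, zero_smul]

end alg

section qexp

theorem periodic_of {f : ℍ → ℂ} (h : ∀ τ : ℍ, f ((1 : ℝ) +ᵥ τ) = f τ) :
    Function.Periodic (f ∘ ofComplex) (1 : ℝ) := by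
  intro w
  by_cases hw : 0 < w.im
  · have h1 : 0 < (w + (1 : ℝ)).im := by simpa using hw
    simp only [Function.comp_apply, ofComplex_apply_of_im_pos h1, ofComplex_apply_of_im_pos hw]
    rw [← h ⟨w, hw⟩]
    congr 1
    ext
    simp [add_comm]
  · have h1 : (w + (1 : ℝ)).im ≤ 0 := by simpa using not_lt.mp hw
    simp only [Function.comp_apply, ofComplex_apply_of_im_nonpos h1,
      ofComplex_apply_of_im_nonpos (not_lt.mp hw)]

/-- functions with an expansion in `q` -/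
theorem qExpansion_eq_of_hasSum {f : ℍ → ℂ} (hf : MDiff f) {A : PowerSeries ℂ}
    (h : ∀ τ : ℍ, HasSum (fun m => PowerSeries.coeff m A • Function.Periodic.qParam 1 (τ : ℂ) ^ m)
      (f τ)) :
    AnalyticAt ℂ (cuspFunction 1 f) 0 ∧ qExpansion 1 f = A := by
  have hper : Function.Periodic (f ∘ ofComplex) (1 : ℝ) := by
    refine periodic_of fun τ => ?_
    have h1 := h ((1 : ℝ) +ᵥ τ)
    have h2 : Function.Periodic.qParam 1 ((((1 : ℝ) +ᵥ τ : ℍ)) : ℂ) =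
        Function.Periodic.qParam 1 (τ : ℂ) := by
      rw [coe_vadd, Function.Periodic.qParam, Function.Periodic.qParam]
      have h3 := Complex.exp_periodic (2 * π * I * (τ : ℂ) / (1 : ℝ))
      rw [← h3]
      congr 1
      push_cast
      ring
    rw [h2] at h1
    exact h1.unique (h τ)
  have hbdd := isBoundedAtImInfty_of_hasSum_qExpansion one_pos h
  have han := analyticAt_cuspFunction_zero one_pos hper hf hbdd
  refine ⟨han, PowerSeries.ext fun m => ?_⟩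
  have h1 := (hasFPowerSeriesOnBall_cuspFunction one_pos han h).hasFPowerSeriesAt
  have h2 := (hasFPowerSeriesOnBall_cuspFunction one_pos han
    (hasSum_qExpansion one_pos hper hf hbdd)).hasFPowerSeriesAt
  have h3 := congr_arg (FormalMultilinearSeries.coeff · m) (h1.eq_formalMultilinearSeries h2)
  simp only [FormalMultilinearSeries.coeff_ofScalars] at h3
  exact h3.symm

variable (w : ℂ)

/-- the value of the terms -/
theorem ft_eq {v : ℝ} {w : ℂ} (hw : w = cexp (2 * π * I * (v - 1 / 2))) (τ : ℂ) (n : ℕ) :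
    ft (-1 / 2) v τ ((n : ℤ) + 1) =
      (-1) ^ n * w ^ n * Function.Periodic.qParam 1 τ ^ Tri n ∧
    ft (-1 / 2) v τ (-((n : ℤ) + 1) + 1) =
      (-1) ^ (n + 1) * (w⁻¹) ^ (n + 1) * Function.Periodic.qParam 1 τ ^ Tri n := by
  have h1 : ∀ m : ℕ, ((-1 : ℂ)) ^ m * w ^ m = cexp (2 * π * I * m * v) := by
    intro m
    rw [← Complex.exp_pi_mul_I, hw, ← Complex.exp_nat_mul, ← Complex.exp_nat_mul,
      ← Complex.exp_add]
    congr 1
    ring
  have h2 : ∀ m : ℕ, ((-1 : ℂ)) ^ m * (w⁻¹) ^ m = cexp (-(2 * π * I * m * v)) := by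
    intro m
    rw [Complex.exp_neg, ← h1 m, mul_inv, ← inv_pow, ← inv_pow, inv_neg, inv_one]
  have h3 : (2 : ℂ) * (Tri n : ℕ) = n * (n + 1) := by
    have := two_mul_Tri n
    exact_mod_cast this
  constructor
  · rw [h1, Function.Periodic.qParam, ← Complex.exp_nat_mul, ← Complex.exp_add, ft]
    congr 1
    push_cast
    rw [div_one]
    linear_combination (-(π * I * τ)) * h3
  · rw [h2, Function.Periodic.qParam, ← Complex.exp_nat_mul, ← Complex.exp_add, ft]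
    congr 1
    push_cast
    rw [div_one]
    linear_combination (-(π * I * τ)) * h3

theorem hasSum_A {v : ℝ} {w : ℂ} (hw : w = cexp (2 * π * I * (v - 1 / 2))) (hw1 : w ≠ 1)
    {τ : ℂ} (hτ : 0 < τ.im) :
    HasSum (fun n => sa w n * Function.Periodic.qParam 1 τ ^ Tri n)
      (w / (w - 1) * (cexp (-(π * I * ((-1 / 2 : ℝ) : ℂ) ^ 2 * τ)) * TH (-1 / 2 + 1) v τ)) := by
  have hw0 : w ≠ 0 := hw ▸ Complex.exp_ne_zero _
  have h1 := hasSum_TH (-1 / 2) v hτ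
  rw [← (Equiv.addRight (1 : ℤ)).hasSum_iff] at h1
  have h2 := h1.nat_add_neg_add_one.mul_left (w / (w - 1))
  have h4 : w - 1 ≠ 0 := sub_ne_zero.mpr hw1
  have h3 : (fun n => sa w n * Function.Periodic.qParam 1 τ ^ Tri n) = fun i : ℕ =>
      w / (w - 1) * ((ft (-1 / 2) v τ ∘ (Equiv.addRight (1 : ℤ))) (i : ℤ) +
        (ft (-1 / 2) v τ ∘ (Equiv.addRight (1 : ℤ))) (-((i : ℤ) + 1))) := by
    funext n
    obtain ⟨e1, e2⟩ := ft_eq hw τ n
    change _ = w / (w - 1) * (ft (-1 / 2) v τ ((n : ℤ) + 1) + ft (-1 / 2) v τ (-((n : ℤ) + 1) + 1))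
    rw [e1, e2]
    have e3 := sub_one_mul_sa hw0 n
    have e4 : sa w n = ((-1) ^ n * (w ^ (n + 1) - (w⁻¹) ^ n)) * (w - 1)⁻¹ := by
      rw [← e3, mul_comm (w - 1), mul_assoc, mul_inv_cancel₀ h4, mul_one]
    have e5 : (w⁻¹) ^ (n + 1) = (w⁻¹) ^ n * w⁻¹ := pow_succ _ _
    have e6 : w * w⁻¹ = 1 := mul_inv_cancel₀ hw0
    rw [e4, e5, pow_succ w, pow_succ (-1 : ℂ), div_eq_mul_inv]
    generalize w⁻¹ = i at *
    generalize (w - 1)⁻¹ = c
    generalize Function.Periodic.qParam 1 τ ^ Tri n = q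
    generalize (-1 : ℂ) ^ n = s
    generalize i ^ n = y
    generalize w ^ n = a
    linear_combination (s * c * q * y) * e6
  rw [h3]
  exact h2

theorem hasSum_B {v : ℝ} {w : ℂ} (hw : w = cexp (2 * π * I * (v - 1 / 2)))
    {τ : ℂ} (hτ : 0 < τ.im) :
    HasSum (fun n => sb w n * Function.Periodic.qParam 1 τ ^ Tri n)
      (2 * w * (cexp (-(π * I * ((-1 / 2 : ℝ) : ℂ) ^ 2 * τ)) * NH (-1 / 2 + 1) v τ)) := by
  have hw0 : w ≠ 0 := hw ▸ Complex.exp_ne_zero _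
  have h1 := hasSum_NH (-1 / 2) v hτ
  rw [← (Equiv.addRight (1 : ℤ)).hasSum_iff] at h1
  have h2 := h1.nat_add_neg_add_one.mul_left (2 * w)
  have h3 : (fun n => sb w n * Function.Periodic.qParam 1 τ ^ Tri n) = fun i : ℕ =>
      2 * w * (((fun k : ℤ => ((k : ℂ) + ((-1 / 2 : ℝ) : ℂ)) * ft (-1 / 2) v τ k) ∘
          (Equiv.addRight (1 : ℤ))) (i : ℤ) +
        ((fun k : ℤ => ((k : ℂ) + ((-1 / 2 : ℝ) : ℂ)) * ft (-1 / 2) v τ k) ∘
          (Equiv.addRight (1 : ℤ))) (-((i : ℤ) + 1))) := by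
    funext n
    obtain ⟨e1, e2⟩ := ft_eq hw τ n
    change _ = 2 * w * ((((((n : ℤ) + 1 : ℤ)) : ℂ) + ((-1 / 2 : ℝ) : ℂ)) *
      ft (-1 / 2) v τ ((n : ℤ) + 1) +
      (((((-((n : ℤ) + 1) + 1 : ℤ))) : ℂ) + ((-1 / 2 : ℝ) : ℂ)) *
        ft (-1 / 2) v τ (-((n : ℤ) + 1) + 1))
    rw [e1, e2, sb]
    have e5 : (w⁻¹) ^ (n + 1) = (w⁻¹) ^ n * w⁻¹ := pow_succ _ _
    have e6 : w * w⁻¹ = 1 := mul_inv_cancel₀ hw0
    rw [e5, pow_succ w, pow_succ (-1 : ℂ)]
    push_cast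
    generalize w⁻¹ = i at *
    generalize Function.Periodic.qParam 1 τ ^ Tri n = q
    generalize (-1 : ℂ) ^ n = s
    generalize i ^ n = y
    generalize w ^ n = a
    linear_combination (-(2 * (n : ℂ) + 1) * s * q * y) * e6
  rw [h3]
  exact h2

end qexp

end Fermat.Agent.DS2

end
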