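import Mathlib
import Fermat.Agent.DS2.QExp
import Fermat.Prelude.Def_FLTPrelim_Modularity

/-!
# Weight one forms congruent to a constant (DS2)
-/

set_option autoImplicit false

noncomputable section

namespace Fermat.Agent.DS2

open Complex Real Filter Topology MatrixGroups ModularForm CongruenceSubgroup
open UpperHalfPlane hiding I
open scoped Manifold
open ModularFormClass (qCoeff)

variable {ℓ : ℕ} [NeZero ℓ]

/-- root of unity -/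
def ww (ℓ : ℕ) (d : ℤ) : ℂ := cexp (2 * π * I * (d / ℓ))

theorem ww_pow (d : ℤ) : ww ℓ d ^ ℓ = 1 := by
  have h0' : (ℓ : ℂ) ≠ 0 := Nat.cast_ne_zero.mpr (NeZero.ne ℓ)
  rw [ww, ← Complex.exp_nat_mul, show (ℓ : ℂ) * (2 * π * I * (d / ℓ)) = d * (2 * π * I) by
    field_simp, exp_int_mul_two_pi_mul_I]

theorem ww_ne_zero (d : ℤ) : ww ℓ d ≠ 0 := Complex.exp_ne_zero _

theorem ww_eq_pow (d : ℕ) : ww ℓ d = ww ℓ 1 ^ d := by
  rw [ww, ww, ← Complex.exp_nat_mul]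
  congr 1
  push_cast
  ring

theorem ww_add (d d' : ℤ) : ww ℓ (d + d') = ww ℓ d * ww ℓ d' := by
  rw [ww, ww, ww, ← Complex.exp_add]
  congr 1
  push_cast
  ring

theorem isIntegral_ww (d : ℤ) : IsIntegral ℤ (ww ℓ d) :=
  IsIntegral.of_pow (NeZero.pos ℓ) (by rw [ww_pow]; exact isIntegral_one)

theorem isIntegral_ww_inv (d : ℤ) : IsIntegral ℤ (ww ℓ d)⁻¹ :=
  IsIntegral.of_pow (NeZero.pos ℓ) (by rw [inv_pow, ww_pow, inv_one]; exact isIntegral_one)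

theorem ww_eq_one_iff (d : ℤ) : ww ℓ d = 1 ↔ (ℓ : ℤ) ∣ d := by
  have h0' : (ℓ : ℂ) ≠ 0 := Nat.cast_ne_zero.mpr (NeZero.ne ℓ)
  rw [ww, Complex.exp_eq_one_iff]
  constructor
  · rintro ⟨n, hn⟩
    have h1 : (2 * π * I : ℂ) * (d / ℓ) = (2 * π * I) * n := by rw [hn]; ring
    have h2 := mul_left_cancel₀ two_pi_I_ne h1
    rw [div_eq_iff h0'] at h2
    refine ⟨n, ?_⟩
    have : (d : ℂ) = ((ℓ * n : ℤ) : ℂ) := by rw [h2]; push_cast; ring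
    exact_mod_cast this
  · rintro ⟨n, rfl⟩
    refine ⟨n, ?_⟩
    push_cast
    field_simp

theorem ww_congr {d d' : ℤ} (h : (d : ZMod ℓ) = d') : ww ℓ d = ww ℓ d' := by
  obtain ⟨a, ha⟩ := (ZMod.intCast_eq_intCast_iff_dvd_sub _ _ _).mp h
  have e1 : d' = d + ℓ * a := by linear_combination ha
  rw [e1, ww_add, (ww_eq_one_iff _).mpr (dvd_mul_right _ _), mul_one]

/-- the parameter -/
theorem ww_eq (d : ℤ) : ww ℓ d = cexp (2 * π * I * ((((d : ℝ) / ℓ + 1 / 2 : ℝ) : ℂ) - 1 / 2)) := by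
  rw [ww]
  congr 1
  push_cast
  ring

theorem mdiff_const_mul {f : ℂ → ℂ} (c : ℂ) (hf : ∀ τ : ℂ, 0 < τ.im → DifferentiableAt ℂ f τ) :
    MDiff (fun τ : ℍ => c * (cexp (-(π * I * ((-1 / 2 : ℝ) : ℂ) ^ 2 * τ)) * f τ)) := by
  rw [UpperHalfPlane.mdifferentiable_iff]
  intro z hz
  refine DifferentiableAt.differentiableWithinAt ?_
  have h1 : DifferentiableAt ℂ (fun τ : ℂ =>
      c * (cexp (-(π * I * ((-1 / 2 : ℝ) : ℂ) ^ 2 * τ)) * f τ)) z :=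
    (DifferentiableAt.mul (by fun_prop) (hf z hz)).const_mul c
  refine h1.congr_of_eventuallyEq ?_
  filter_upwards [isOpen_upperHalfPlaneSet.mem_nhds hz] with w hw
  simp [ofComplex_apply_of_im_pos hw]

theorem EE_zero_eq {d : ℤ} (hd : ¬ (ℓ : ℤ) ∣ d) (τ : ℍ) :
    EE ℓ 0 d τ * TH (-1 / 2 + 1) ((d : ℝ) / ℓ + 1 / 2) τ =
      NH (-1 / 2 + 1) ((d : ℝ) / ℓ + 1 / 2) τ := by
  have h1 := TH_ne_zero (NZ_zero hd) τ.im_pos
  have h2 : (((0 : ℤ) : ℝ) / ℓ + 1 / 2) = -1 / 2 + 1 := by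
    rw [Int.cast_zero, zero_div]
    norm_num
  rw [EE, h2]
  rw [h2] at h1
  rw [G_eq_div h1, div_mul_cancel₀ _ h1]

theorem GE_coe (d : ℤ) (hd : ¬ (ℓ : ℤ) ∣ d) : (GE d hd : ℍ → ℂ) = EE ℓ 0 d := rfl

theorem one_mem_strictPeriods : (1 : ℝ) ∈
    ((Gamma1 ℓ).map (Matrix.SpecialLinearGroup.mapGL ℝ)).strictPeriods := by
  simp

/-- **the `q`-expansion** -/
theorem qExpansion_EE {d : ℤ} (hd : ¬ (ℓ : ℤ) ∣ d) :
    (PowerSeries.C (2 * (ww ℓ d - 1)) * qExpansion 1 (EE ℓ 0 d)) * spr (sa (ww ℓ d)) =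
      spr (sb (ww ℓ d)) := by
  have hw1 : ww ℓ d ≠ 1 := fun h => hd ((ww_eq_one_iff d).mp h)
  have hA : ∀ τ : ℍ, HasSum (fun m => PowerSeries.coeff m (spr (sa (ww ℓ d))) •
      Function.Periodic.qParam 1 (τ : ℂ) ^ m) _ := fun τ =>
    hasSum_spr (hasSum_A (ww_eq d) hw1 τ.im_pos)
  have hB : ∀ τ : ℍ, HasSum (fun m => PowerSeries.coeff m (spr (sb (ww ℓ d))) •
      Function.Periodic.qParam 1 (τ : ℂ) ^ m) _ := fun τ =>
    hasSum_spr (hasSum_B (ww_eq d) τ.im_pos)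
  obtain ⟨a1, a2⟩ := qExpansion_eq_of_hasSum (mdiff_const_mul _ fun τ hτ =>
    differentiableAt_TH (-1 / 2 + 1) ((d : ℝ) / ℓ + 1 / 2) hτ) hA
  obtain ⟨b1, b2⟩ := qExpansion_eq_of_hasSum (mdiff_const_mul _ fun τ hτ =>
    differentiableAt_NH (t := -1 / 2) (by norm_num [abs_le]) ((d : ℝ) / ℓ + 1 / 2) hτ) hB
  have e1 : AnalyticAt ℂ (cuspFunction 1 (EE ℓ 0 d)) 0 :=
    ModularFormClass.analyticAt_cuspFunction_zero (GE d hd) one_pos one_mem_strictPeriods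
  have h4 : ww ℓ d - 1 ≠ 0 := sub_ne_zero.mpr hw1
  rw [← a2, ← b2, mul_assoc, ← UpperHalfPlane.qExpansion_mul e1 a1]
  rw [← PowerSeries.smul_eq_C_mul, ← UpperHalfPlane.qExpansion_smul]
  · congr 1
    funext τ
    have h5 := EE_zero_eq hd τ
    simp only [Pi.smul_apply, Pi.mul_apply, smul_eq_mul]
    rw [← h5]
    field_simp
  · rw [UpperHalfPlane.cuspFunction_mul e1.continuousAt a1.continuousAt]
    exact e1.mul a1

end Fermat.Agent.DS2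

end
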