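import Mathlib
import Fermat.Agent.DS2.Main

/-!
# Weight one forms congruent to a constant: the final statements (DS2)
-/

set_option autoImplicit false

noncomputable section

namespace Fermat.Agent.DS2

open Complex Real Filter Topology MatrixGroups ModularForm CongruenceSubgroup
open UpperHalfPlane hiding I
open scoped Manifold
open ModularFormClass (qCoeff)

section

variable {ℓ : ℕ} [NeZero ℓ]

theorem coeff_EE_mem {d : ℤ} (hd : ¬ (ℓ : ℤ) ∣ d) (m : ℕ) :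
    2 * (ww ℓ d - 1) * qCoeff (EE ℓ 0 d) m - (if m = 0 then 2 else 0) ∈ JJ (ww ℓ d - 1) := by
  have h1 := coeff_sub_mem (ϖ := ww ℓ d - 1) (qExpansion_EE hd)
    (fun m => coeff_spr_cases (IsIntegral ℤ) isIntegral_zero
      (isIntegral_sa (isIntegral_ww d) (isIntegral_ww_inv d)) m)
    (by rw [show (0 : ℕ) = Tri 0 from rfl, coeff_spr_Tri]; simp [sa])
    (fun m => by
      by_cases hm : m ∈ Set.range Tri
      · obtain ⟨n, rfl⟩ := hm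
        rw [coeff_spr_Tri, coeff_spr_Tri]
        exact sb_sub_sa (isIntegral_ww d) (isIntegral_ww_inv d) (ww_ne_zero d) n
      · rw [coeff_spr_of_notMem _ hm, coeff_spr_of_notMem _ hm, mul_zero, sub_zero]
        exact zero_mem _) m
  rwa [PowerSeries.coeff_C_mul] at h1

theorem natCast_mem_JJ {w : ℂ} (h1 : w ^ ℓ = 1) (h2 : w ≠ 1) : (ℓ : ℂ) ∈ JJ (w - 1) := by
  have hw : IsIntegral ℤ w := IsIntegral.of_pow (NeZero.pos ℓ) (by rw [h1]; exact isIntegral_one)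
  have h3 : (∑ i ∈ Finset.range ℓ, w ^ i) = 0 := by
    have h4 := mul_geom_sum w ℓ
    rw [h1, sub_self] at h4
    exact (mul_eq_zero.mp h4).resolve_left (sub_ne_zero.mpr h2)
  have h5 : (ℓ : ℂ) = -∑ i ∈ Finset.range ℓ, (w ^ i - 1) := by
    rw [Finset.sum_sub_distrib, h3, Finset.sum_const, Finset.card_range, nsmul_eq_mul, mul_one]
    ring
  rw [h5]
  exact (JJ _).neg_mem ((JJ _).sum_mem fun i _ => pow_sub_one_mem hw i)

theorem isIntegral_natCast' (n : ℕ) : IsIntegral ℤ (n : ℂ) := by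
  have : (n : ℂ) = ((n : ℤ) : ℂ) := by push_cast; rfl
  rw [this]
  exact isIntegral_algebraMap

theorem JJ_mono {a b : ℂ} (h : a ∈ JJ b) {x : ℂ} (hx : x ∈ JJ a) : x ∈ JJ b := by
  obtain ⟨y, hy, rfl⟩ := hx
  exact JJ.mul_mem h hy

end

section

variable {ℓ : ℕ} [Fact ℓ.Prime]

/-- representatives -/
def dv (d : (ZMod ℓ)ˣ) : ℤ := ((d : ZMod ℓ).val : ℤ)

theorem dv_cast (d : (ZMod ℓ)ˣ) : ((dv d : ℤ) : ZMod ℓ) = d := by
  rw [dv, Int.cast_natCast, ZMod.natCast_zmod_val]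

theorem not_dvd_dv (d : (ZMod ℓ)ˣ) : ¬ (ℓ : ℤ) ∣ dv d := by
  intro h
  have h1 := (ZMod.intCast_zmod_eq_zero_iff_dvd _ _).mpr h
  rw [dv_cast] at h1
  exact d.ne_zero h1

/-- the uniformizer -/
def varpi (ℓ : ℕ) : ℂ := ww ℓ 1 - 1

/-- **the forms `g_d`** -/
def gd (d : (ZMod ℓ)ˣ) : ModularForm ((Gamma1 ℓ).map (Matrix.SpecialLinearGroup.mapGL ℝ)) 1 :=
  (2 * varpi ℓ) • GE (dv d) (not_dvd_dv d)

theorem gd_coe (d : (ZMod ℓ)ˣ) : (gd d : ℍ → ℂ) = (2 * varpi ℓ) • EE ℓ 0 (dv d) := rfl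

theorem isIntegral_varpi : IsIntegral ℤ (varpi ℓ) := (isIntegral_ww 1).sub isIntegral_one

/-- **diamond operators** -/
theorem gd_slash (d d' : (ZMod ℓ)ˣ) {γ : SL(2, ℤ)} (hγ : γ ∈ Gamma0 ℓ)
    (h : (d' : ZMod ℓ) = d * (γ 1 1 : ZMod ℓ)) :
    (gd d : ℍ → ℂ) ∣[(1 : ℤ)] γ = gd d' := by
  rw [gd_coe, gd_coe, ModularForm.SL_smul_slash, EE_slash_Gamma0 (d' := dv d') (not_dvd_dv d) hγ
    (by rw [dv_cast, dv_cast, h])]

theorem qCoeff_gd (d : (ZMod ℓ)ˣ) (m : ℕ) :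
    qCoeff (gd d) m = 2 * varpi ℓ * qCoeff (EE ℓ 0 (dv d)) m := by
  have e1 : AnalyticAt ℂ (cuspFunction 1 (EE ℓ 0 (dv d))) 0 :=
    ModularFormClass.analyticAt_cuspFunction_zero (GE (dv d) (not_dvd_dv d)) one_pos
      one_mem_strictPeriods
  rw [qCoeff, qCoeff, gd_coe, UpperHalfPlane.qExpansion_smul e1, map_smul, smul_eq_mul]

theorem exists_inv (d : (ZMod ℓ)ˣ) : ∃ c : ℂ, IsIntegral ℤ c ∧ varpi ℓ = (ww ℓ (dv d) - 1) * c ∧
    dv d * c - 1 ∈ JJ (ww ℓ (dv d) - 1) := by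
  set w := ww ℓ (dv d) with hw
  let e : ℕ := ((d⁻¹ : (ZMod ℓ)ˣ) : ZMod ℓ).val
  have hwi : IsIntegral ℤ w := isIntegral_ww _
  have h1 : w ^ e = ww ℓ 1 := by
    rw [hw, dv, show (((d : ZMod ℓ).val : ℕ) : ℤ) = (((d : ZMod ℓ).val : ℕ) : ℤ) from rfl,
      ww_eq_pow, ← pow_mul, ← ww_eq_pow]
    refine ww_congr ?_
    push_cast
    rw [ZMod.natCast_zmod_val, ZMod.natCast_zmod_val, Units.mul_inv]
  refine ⟨∑ i ∈ Finset.range e, w ^ i, IsIntegral.sum _ fun i _ => hwi.pow i, ?_, ?_⟩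
  · rw [mul_geom_sum, h1, varpi]
  · have h2 : (∑ i ∈ Finset.range e, w ^ i) - e = ∑ i ∈ Finset.range e, (w ^ i - 1) := by
      rw [Finset.sum_sub_distrib, Finset.sum_const, Finset.card_range, nsmul_eq_mul, mul_one]
    have h3 : (∑ i ∈ Finset.range e, w ^ i) - e ∈ JJ (w - 1) := by
      rw [h2]
      exact (JJ _).sum_mem fun i _ => pow_sub_one_mem hwi i
    have h4 : (ℓ : ℤ) ∣ dv d * e - 1 := by
      refine (ZMod.intCast_zmod_eq_zero_iff_dvd _ _).mp ?_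
      push_cast
      rw [dv_cast, ZMod.natCast_zmod_val, Units.mul_inv, sub_self]
    obtain ⟨k, hk⟩ := h4
    have h5 : ((dv d : ℂ)) * e - 1 = ℓ * (k : ℂ) := by exact_mod_cast hk
    have h6 : (dv d : ℂ) * (∑ i ∈ Finset.range e, w ^ i) - 1 =
        (dv d : ℂ) * ((∑ i ∈ Finset.range e, w ^ i) - e) + ℓ * (k : ℂ) := by
      rw [← h5]; ring
    rw [h6]
    have h7 : w ≠ 1 := fun h => not_dvd_dv d ((ww_eq_one_iff _).mp h)
    exact (JJ _).add_mem (JJ.mul_mem' isIntegral_algebraMap h3)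
      (JJ.mul_mem (natCast_mem_JJ (ww_pow _) h7) isIntegral_algebraMap)

theorem JJ_ww_le (d : (ZMod ℓ)ˣ) {x : ℂ} (hx : x ∈ JJ (ww ℓ (dv d) - 1)) : x ∈ JJ (varpi ℓ) := by
  refine JJ_mono ?_ hx
  rw [dv, ww_eq_pow]
  exact pow_sub_one_mem (isIntegral_ww 1) _

theorem qCoeff_gd_mem (d : (ZMod ℓ)ˣ) (m : ℕ) :
    dv d * qCoeff (gd d) m - (if m = 0 then 2 else 0) ∈ JJ (varpi ℓ) ∧
      IsIntegral ℤ (qCoeff (gd d) m) := by
  obtain ⟨c, hc, h1, h2⟩ := exists_inv d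
  have h3 := coeff_EE_mem (not_dvd_dv d) m
  have h4 : qCoeff (gd d) m = c * (2 * (ww ℓ (dv d) - 1) * qCoeff (EE ℓ 0 (dv d)) m) := by
    rw [qCoeff_gd, h1]
    ring
  have hi : IsIntegral ℤ ((if m = 0 then 2 else 0 : ℂ)) := by
    split_ifs
    · exact_mod_cast isIntegral_natCast' 2
    · exact isIntegral_zero
  constructor
  · have h5 : dv d * qCoeff (gd d) m - (if m = 0 then 2 else 0) =
        (dv d * c) * (2 * (ww ℓ (dv d) - 1) * qCoeff (EE ℓ 0 (dv d)) m -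
          (if m = 0 then 2 else 0)) + (if m = 0 then 2 else 0) * (dv d * c - 1) := by
      rw [h4]
      ring
    rw [h5]
    exact JJ_ww_le d ((JJ _).add_mem (JJ.mul_mem' (isIntegral_algebraMap.mul hc) h3)
      (JJ.mul_mem' hi h2))
  · have h6 := JJ.isIntegral ((isIntegral_ww _).sub isIntegral_one) h3
    have h7 := h6.add hi
    rw [sub_add_cancel] at h7
    rw [h4]
    exact hc.mul h7

/-- **DS2** -/
theorem DS2_main :
    (∀ (d d' : (ZMod ℓ)ˣ) (γ : SL(2, ℤ)), γ ∈ Gamma0 ℓ → (d' : ZMod ℓ) = d * (γ 1 1 : ZMod ℓ) →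
      (gd d : ℍ → ℂ) ∣[(1 : ℤ)] γ = gd d') ∧
    (∀ (d : (ZMod ℓ)ˣ) (m : ℕ), IsIntegral ℤ (qCoeff (gd d) m)) ∧
    (∀ (d : (ZMod ℓ)ˣ) (m : ℕ), dv d * qCoeff (gd d) m - (if m = 0 then 2 else 0) ∈
      JJ (varpi ℓ)) :=
  ⟨fun d d' _ hγ h => gd_slash d d' hγ h, fun d m => (qCoeff_gd_mem d m).2,
    fun d m => (qCoeff_gd_mem d m).1⟩

/-- the uniformizer reduces to zero -/
theorem red_JJ {R : Subring ℂ} (hR : ∀ x : ℂ, IsIntegral ℤ x → x ∈ R) {k : Type*} [Field k]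
    [CharP k ℓ] (φ : R →+* k) {x : ℂ} (hx : x ∈ JJ (varpi ℓ)) (hx' : x ∈ R) :
    φ ⟨x, hx'⟩ = 0 := by
  obtain ⟨y, hy, rfl⟩ := hx
  have h1 : (⟨varpi ℓ * y, hx'⟩ : R) =
      (⟨ww ℓ 1, hR _ (isIntegral_ww 1)⟩ - 1) * ⟨y, hR y hy⟩ := rfl
  have h2 : (⟨ww ℓ 1, hR _ (isIntegral_ww 1)⟩ : R) ^ ℓ = 1 := Subtype.ext (ww_pow 1)
  have h3 : (φ ⟨ww ℓ 1, hR _ (isIntegral_ww 1)⟩ - 1) ^ ℓ = 0 := by
    rw [sub_pow_char, one_pow, ← map_pow, h2, map_one, sub_self]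
  rw [h1, map_mul, map_sub, map_one, (pow_eq_zero_iff (Fact.out : ℓ.Prime).ne_zero).mp h3,
    zero_mul]

/-- **DS2, reduced form**: the forms `g_d` reduce to the constant `2 / d` -/
theorem red_gd {R : Subring ℂ} (hR : ∀ x : ℂ, IsIntegral ℤ x → x ∈ R) {k : Type*} [Field k]
    [CharP k ℓ] (φ : R →+* k) (d : (ZMod ℓ)ˣ) (m : ℕ) :
    φ ⟨qCoeff (gd d) m, hR _ (qCoeff_gd_mem d m).2⟩ =
      if m = 0 then 2 / ZMod.castHom (dvd_refl ℓ) k (d : ZMod ℓ) else 0 := by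
  have h1 := (qCoeff_gd_mem d m).1
  have h2 : ((if m = 0 then 2 else 0 : ℂ)) ∈ R := by
    split_ifs
    · exact hR _ (by exact_mod_cast isIntegral_natCast' 2)
    · exact R.zero_mem
  have h3 : ((dv d : ℤ) : ℂ) ∈ R := hR _ isIntegral_algebraMap
  have hx' : dv d * qCoeff (gd d) m - (if m = 0 then 2 else 0) ∈ R :=
    R.sub_mem (R.mul_mem h3 (hR _ (qCoeff_gd_mem d m).2)) h2
  have h4 := red_JJ hR φ h1 hx'
  have h5 : (⟨dv d * qCoeff (gd d) m - (if m = 0 then 2 else 0), hx'⟩ : R) =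
      ((dv d : ℤ) : R) * ⟨qCoeff (gd d) m, hR _ (qCoeff_gd_mem d m).2⟩ -
        (if m = 0 then 2 else 0) := by
    refine Subtype.ext ?_
    split_ifs <;> push_cast <;> rfl
  rw [h5, map_sub, map_mul, map_intCast, sub_eq_zero] at h4
  have h6 : ZMod.castHom (dvd_refl ℓ) k (d : ZMod ℓ) = ((dv d : ℤ) : k) := by
    rw [← dv_cast d, map_intCast]
  have h7 : ((dv d : ℤ) : k) ≠ 0 := by
    rw [← h6]
    exact (d.map (ZMod.castHom (dvd_refl ℓ) k).toMonoidHom).ne_zero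
  rw [h6]
  split_ifs at h4 ⊢ with hm
  · rw [eq_div_iff h7, mul_comm, h4, map_ofNat]
  · rw [map_zero] at h4
    exact (mul_eq_zero.mp h4).resolve_left h7

end

end Fermat.Agent.DS2

end
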