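import Mathlib
import Fermat.Agent.DS2.Final

/-!
# Teichmüller lifts and the weight one form with character
-/

set_option autoImplicit false

noncomputable section

namespace Fermat.Agent.DS2

open Complex Real Filter Topology MatrixGroups ModularForm CongruenceSubgroup
open UpperHalfPlane hiding I
open scoped Manifold
open ModularFormClass (qCoeff)

section teich

variable {ℓ : ℕ} [Fact ℓ.Prime] {O k : Type*} [CommRing O] [Field k] [CharP k ℓ]

/-- **Teichmüller lift** -/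
theorem exists_teich (i : O →+* ℂ) (hi : Function.Injective i)
    (hint : ∀ x : ℂ, IsIntegral ℤ x → ∃ y : O, i y = x) (ϕ : O →+* k) :
    ∃ t : (ZMod ℓ)ˣ →* Oˣ, ∀ d, ϕ (t d : O) = ZMod.castHom (dvd_refl ℓ) k (d : ZMod ℓ) := by
  classical
  have hp : ℓ.Prime := Fact.out
  have hn0 : ℓ - 1 ≠ 0 := Nat.sub_ne_zero_of_lt hp.one_lt
  have : NeZero (ℓ - 1) := ⟨hn0⟩
  have : IsDomain O := hi.isDomain i
  let r : rootsOfUnity (ℓ - 1) O →* rootsOfUnity (ℓ - 1) k := restrictRootsOfUnity ϕ (ℓ - 1)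
  have hr : Function.Injective r := by
    refine (injective_iff_map_eq_one r).mpr fun x hx => ?_
    by_contra hne
    have h1 : ((x : Oˣ) : O) ≠ 1 := fun h => hne (Subtype.ext (Units.ext h))
    have h2 : ((x : Oˣ) : O) ^ (ℓ - 1) = 1 := by
      have := (mem_rootsOfUnity' _ _).mp x.2
      exact this
    have h3 : ϕ ((x : Oˣ) : O) = 1 := by
      have := congrArg (fun y : rootsOfUnity (ℓ - 1) k => ((y : kˣ) : k)) hx
      exact this
    have h4 : (∑ j ∈ Finset.range (ℓ - 1), ((x : Oˣ) : O) ^ j) = 0 := by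
      have h5 := mul_geom_sum ((x : Oˣ) : O) (ℓ - 1)
      rw [h2, sub_self] at h5
      exact (mul_eq_zero.mp h5).resolve_left (sub_ne_zero.mpr h1)
    have h6 := congrArg ϕ h4
    rw [map_sum, map_zero] at h6
    simp only [map_pow, h3, one_pow, Finset.sum_const, Finset.card_range, nsmul_eq_mul,
      mul_one] at h6
    have h7 : ((ℓ - 1 : ℕ) : k) + 1 = 0 := by
      rw [← Nat.cast_one (R := k), ← Nat.cast_add, Nat.sub_add_cancel hp.one_lt.le,
        CharP.cast_eq_zero]
    rw [h6, zero_add] at h7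
    exact one_ne_zero h7
  obtain ⟨ζ, hζ⟩ := hint (cexp (2 * (Real.pi : ℂ) * I / ((ℓ - 1 : ℕ) : ℂ))) (by
    refine IsIntegral.of_pow (Nat.pos_of_ne_zero hn0) ?_
    rw [(Complex.isPrimitiveRoot_exp (ℓ - 1) hn0).pow_eq_one]
    exact isIntegral_one)
  have hζ' : IsPrimitiveRoot ζ (ℓ - 1) := by
    refine IsPrimitiveRoot.of_map_of_injective (f := i) ?_ hi
    rw [hζ]
    exact Complex.isPrimitiveRoot_exp (ℓ - 1) hn0
  have hcO : Nat.card (rootsOfUnity (ℓ - 1) O) = ℓ - 1 := hζ'.card_rootsOfUnity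
  have hck : Nat.card (rootsOfUnity (ℓ - 1) k) ≤ ℓ - 1 := _root_.card_rootsOfUnity k (ℓ - 1)
  have hbij : Function.Bijective r := by
    rw [Nat.bijective_iff_injective_and_card]
    exact ⟨hr, le_antisymm (Nat.card_le_card_of_injective r hr) (hck.trans hcO.ge)⟩
  let e : rootsOfUnity (ℓ - 1) O ≃* rootsOfUnity (ℓ - 1) k := MulEquiv.ofBijective r hbij
  let c : (ZMod ℓ)ˣ →* rootsOfUnity (ℓ - 1) k :=
    (Units.map (ZMod.castHom (dvd_refl ℓ) k : ZMod ℓ →* k)).codRestrict _ fun d => by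
      rw [_root_.mem_rootsOfUnity, ← map_pow, ZMod.units_pow_card_sub_one_eq_one, map_one]
  refine ⟨(rootsOfUnity (ℓ - 1) O).subtype.comp (e.symm.toMonoidHom.comp c), fun d => ?_⟩
  have h1 : r (e.symm (c d)) = c d := e.apply_symm_apply (c d)
  exact congrArg (fun y : rootsOfUnity (ℓ - 1) k => ((y : kˣ) : k)) h1

end teich

end Fermat.Agent.DS2

end
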