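import Mathlib
import Fermat.Agent.DS2.Teich
import Fermat.Agent.H22.GamH
import Fermat.Agent.H16.CuspPeriod

/-!
# The weight one Eisenstein series with character and products with weight one cusp forms
-/

set_option autoImplicit false

noncomputable section

namespace Fermat.Agent.DS2

open Complex Real Filter Topology MatrixGroups ModularForm CongruenceSubgroup Function
open UpperHalfPlane hiding I
open scoped Manifold
open ModularFormClass (qCoeff)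
open Fermat.Agent.H16 (intMat mapGL_mem det_pos_of_mem Cuspidal transMat slash_transMat
  transMat_smul periodic_comp_ofComplex_of isCusp_smul_infty)
open Fermat.Agent.H22 (dChar dChar_val)

section hform

variable {ℓ : ℕ} [Fact ℓ.Prime] (χ : (ZMod ℓ)ˣ →* ℂˣ)

/-- the weight one form with character `χ⁻¹` -/
def hform : ModularForm ((Gamma1 ℓ).map (Matrix.SpecialLinearGroup.mapGL ℝ)) 1 :=
  ∑ d : (ZMod ℓ)ˣ, ((χ d : ℂˣ) : ℂ) • gd d

/-- coercion as a homomorphism -/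
def coeHomG (Γ : Subgroup (GL (Fin 2) ℝ)) (k : ℤ) : ModularForm Γ k →+ (ℍ → ℂ) where
  toFun f := f
  map_zero' := rfl
  map_add' _ _ := rfl

theorem hform_coe : (hform χ : ℍ → ℂ) = ∑ d : (ZMod ℓ)ˣ, ((χ d : ℂˣ) : ℂ) • (gd d : ℍ → ℂ) :=
  map_sum (coeHomG _ 1) (fun d => ((χ d : ℂˣ) : ℂ) • gd d) Finset.univ

theorem hform_slash (γ : SL(2, ℤ)) (hγ : γ ∈ Gamma0 ℓ) :
    (hform χ : ℍ → ℂ) ∣[(1 : ℤ)] γ = (((χ (dChar ℓ ⟨γ, hγ⟩))⁻¹ : ℂˣ) : ℂ) • (hform χ : ℍ → ℂ) := by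
  set u := dChar ℓ ⟨γ, hγ⟩ with hu
  have h1 : ∀ d : (ZMod ℓ)ˣ, (gd d : ℍ → ℂ) ∣[(1 : ℤ)] γ = gd (d * u) := fun d =>
    gd_slash d (d * u) hγ (by rw [hu, Units.val_mul, dChar_val])
  rw [hform_coe, SlashAction.sum_slash, Finset.smul_sum]
  rw [← Equiv.sum_comp (Equiv.mulRight u) (fun d => (((χ u)⁻¹ : ℂˣ) : ℂ) • ((χ d : ℂˣ) : ℂ) •
    (gd d : ℍ → ℂ))]
  refine Finset.sum_congr rfl fun d _ => ?_
  rw [ModularForm.SL_smul_slash, h1, Equiv.coe_mulRight, smul_smul, ← Units.val_mul, map_mul,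
    mul_comm (χ d), inv_mul_cancel_left]

theorem qCoeff_hform (m : ℕ) :
    qCoeff (hform χ) m = ∑ d : (ZMod ℓ)ˣ, ((χ d : ℂˣ) : ℂ) * qCoeff (gd d) m := by
  have h1 := map_sum (ModularForm.qExpansionAddHom one_pos (one_mem_strictPeriods (ℓ := ℓ)) 1)
    (fun d => ((χ d : ℂˣ) : ℂ) • gd d) Finset.univ
  have h2 := congrArg (PowerSeries.coeff m) h1
  rw [map_sum (PowerSeries.coeff m)] at h2
  refine Eq.trans h2 (Finset.sum_congr rfl fun d _ => ?_)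
  have h3 := ModularForm.qExpansion_smul one_pos (one_mem_strictPeriods (ℓ := ℓ))
    ((χ d : ℂˣ) : ℂ) (gd d)
  change PowerSeries.coeff m (qExpansion 1 (((χ d : ℂˣ) : ℂ) • gd d : ModularForm _ _)) = _
  rw [← FunLike.coe_smul] at h3
  rw [h3, map_smul, smul_eq_mul]
  rfl

end hform

section prod

/-- periodicity of the translates -/
theorem slash_periodic' {M : ℕ} [NeZero M] {k : ℤ} {F : ℍ → ℂ}
    (hF : ∀ γ ∈ Gamma1 M, F ∣[k] (γ : SL(2, ℤ)) = F) {γ : GL (Fin 2) ℝ} (hγ : γ ∈ intMat) :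
    ∃ n : ℕ, 0 < n ∧ Periodic ((F ∣[k] γ) ∘ ofComplex) (n : ℝ) := by
  obtain ⟨hdet, A, hA⟩ := hγ
  have h1 : γ.det.val = ((A.det : ℤ) : ℝ) := by
    rw [Matrix.GeneralLinearGroup.val_det_apply, hA]
    exact (Int.cast_det A).symm
  have h2 : (0 : ℤ) < A.det := by rw [h1] at hdet; exact_mod_cast hdet
  refine ⟨M * A.det.toNat, Nat.mul_pos (NeZero.pos M) (by omega), ?_⟩
  set h : ℝ := ((M * A.det.toNat : ℕ) : ℝ) with hh
  have hh' : h = M * A.det := by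
    rw [hh]; push_cast
    congr 1
    have : ((A.det.toNat : ℤ) : ℝ) = (A.det : ℝ) := by rw [Int.toNat_of_nonneg h2.le]
    exact_mod_cast this
  let B : SL(2, ℤ) := ⟨!![1 - M * A 0 0 * A 1 0, M * A 0 0 ^ 2; - M * A 1 0 ^ 2,
    1 + M * A 0 0 * A 1 0], by rw [Matrix.det_fin_two_of]; ring⟩
  have hB : B ∈ Gamma1 M := by
    rw [Gamma1_mem]; simp [B]
  have hcomm : γ * transMat h = Matrix.SpecialLinearGroup.mapGL ℝ B * γ := by
    apply Units.ext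
    rw [Units.val_mul, Units.val_mul, hA]
    have hd : ((A.det : ℤ) : ℝ) = A 0 0 * A 1 1 - A 0 1 * A 1 0 := by
      rw [Matrix.det_fin_two]; push_cast; ring
    ext i j
    fin_cases i <;> fin_cases j <;>
      simp [transMat, Matrix.GeneralLinearGroup.mkOfDetNeZero, Matrix.mul_apply,
        Fin.sum_univ_two, B, hh', hd] <;> ring
  have hinv : (F ∣[k] γ) ∣[k] transMat h = F ∣[k] γ := by
    rw [← SlashAction.slash_mul, hcomm, SlashAction.slash_mul]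
    congr 1
    exact hF B hB
  apply periodic_comp_ofComplex_of
  intro τ hw
  have h3 := congrFun hinv τ
  rw [slash_transMat] at h3
  rw [← h3]
  refine congrArg (F ∣[k] γ) (UpperHalfPlane.ext ?_)
  rw [transMat_smul]

variable {M ℓ : ℕ} [NeZero M] [NeZero ℓ]
  (f : CuspForm ((Gamma1 M).map (Matrix.SpecialLinearGroup.mapGL ℝ)) 1)
  (h : ModularForm ((Gamma1 ℓ).map (Matrix.SpecialLinearGroup.mapGL ℝ)) 1)

omit [NeZero M] [NeZero ℓ] in
theorem Gamma1_anti {N N' : ℕ} (hN : N ∣ N') : Gamma1 N' ≤ Gamma1 N := by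
  intro γ hγ
  rw [Gamma1_mem] at hγ ⊢
  obtain ⟨h1, h2, h3⟩ := hγ
  refine ⟨?_, ?_, ?_⟩
  · have := congrArg (ZMod.castHom hN (ZMod N)) h1
    rwa [map_one, map_intCast] at this
  · have := congrArg (ZMod.castHom hN (ZMod N)) h2
    rwa [map_one, map_intCast] at this
  · have := congrArg (ZMod.castHom hN (ZMod N)) h3
    rwa [map_zero, map_intCast] at this

omit [NeZero M] [NeZero ℓ] in
theorem mul_slash_two (a b : ℍ → ℂ) (γ : SL(2, ℤ)) :
    (a * b) ∣[(2 : ℤ)] γ = (a ∣[(1 : ℤ)] γ) * (b ∣[(1 : ℤ)] γ) := by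
  have := ModularForm.mul_slash_SL2 1 1 γ a b
  rwa [show (1 : ℤ) + 1 = 2 by norm_num] at this

omit [NeZero M] [NeZero ℓ] in
theorem prod_inv {γ : SL(2, ℤ)} (hγ : γ ∈ Gamma1 (M * ℓ)) :
    ((f : ℍ → ℂ) * h) ∣[(2 : ℤ)] γ = (f : ℍ → ℂ) * h := by
  rw [mul_slash_two]
  congr 1
  · exact SlashInvariantFormClass.slash_action_eq f _ ⟨γ, Gamma1_anti (dvd_mul_right M ℓ) hγ, rfl⟩
  · exact SlashInvariantFormClass.slash_action_eq h _ ⟨γ, Gamma1_anti (dvd_mul_left ℓ M) hγ, rfl⟩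

theorem cuspAll_mul {γ : GL (Fin 2) ℝ} (hγ : γ ∈ intMat) :
    Cuspidal (((f : ℍ → ℂ) * h) ∣[(2 : ℤ)] γ) where
  holo := MDifferentiable.slash ((CuspFormClass.holo f).mul (ModularFormClass.holo h)) 2 γ
  per := by
    have : NeZero (M * ℓ) := ⟨mul_ne_zero (NeZero.ne M) (NeZero.ne ℓ)⟩
    exact slash_periodic' (M := M * ℓ) (fun γ hγ => prod_inv f h hγ) hγ
  zero := by
    have h0 := ModularForm.mul_slash 1 1 γ f h
    rw [show (1 : ℤ) + 1 = 2 by norm_num] at h0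
    rw [h0]
    have h1 : IsZeroAtImInfty ((f : ℍ → ℂ) ∣[(1 : ℤ)] γ) :=
      CuspFormClass.zero_at_cusps f (isCusp_smul_infty hγ) γ rfl
    have h2 : IsBoundedAtImInfty ((h : ℍ → ℂ) ∣[(1 : ℤ)] γ) :=
      ModularFormClass.bdd_at_cusps h (isCusp_smul_infty hγ) γ rfl
    have h3 : (((f : ℍ → ℂ) ∣[(1 : ℤ)] γ) * ((h : ℍ → ℂ) ∣[(1 : ℤ)] γ))
        =o[atImInfty] (fun _ : ℍ => (1 : ℝ) * 1) :=
      ((Asymptotics.isLittleO_one_iff ℝ).mpr h1).mul_isBigO h2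
    have h4 : IsZeroAtImInfty (((f : ℍ → ℂ) ∣[(1 : ℤ)] γ) * ((h : ℍ → ℂ) ∣[(1 : ℤ)] γ)) := by
      simp only [mul_one] at h3
      exact (Asymptotics.isLittleO_one_iff ℝ).mp h3
    have h5 := h4.const_smul |γ.det.val|
    rw [smul_zero] at h5
    exact h5

omit [NeZero M] [NeZero ℓ] in
theorem one_mem_sP (N : ℕ) : (1 : ℝ) ∈
    ((Gamma1 N).map (Matrix.SpecialLinearGroup.mapGL ℝ)).strictPeriods := by
  simp

theorem qCoeff_prod (n : ℕ) : qCoeff ((f : ℍ → ℂ) * h) n =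
    ∑ x ∈ Finset.HasAntidiagonal.antidiagonal n, qCoeff f x.1 * qCoeff h x.2 := by
  have h1 := UpperHalfPlane.qExpansion_mul (h := 1)
    (ModularFormClass.analyticAt_cuspFunction_zero f one_pos (one_mem_sP M))
    (ModularFormClass.analyticAt_cuspFunction_zero h one_pos (one_mem_sP ℓ))
  rw [qCoeff, h1, PowerSeries.coeff_mul]
  rfl

end prod

end Fermat.Agent.DS2

end
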