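import Mathlib
import Fermat.Agent.DS2.HForm
import Fermat.Agent.H22.GamHLin
import Fermat.Agent.H03.DS3F

/-!
# Eigenclasses attached to weight one forms
-/

set_option autoImplicit false

noncomputable section

namespace Fermat.Agent.DS2

open Filter Topology MatrixGroups ModularForm CongruenceSubgroup Function
open UpperHalfPlane hiding I
open scoped Manifold
open ModularFormClass (qCoeff)
open Fermat.Agent.H16 (intMat mapGL_mem)
open Fermat.Agent.H22 (dChar dChar_val GamH heckeHL diamondL tr2)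
open Fermat.Agent.TC (HM)
open Fermat.Agent.DS3 (EigData Good IsF Neb unitOf exists_eigenclass Par op)

theorem dChar_anti {N N' : ℕ} (h : N ∣ N') (σ : Gamma0 N')
    (hσ : (σ : SL(2, ℤ)) ∈ Gamma0 N) :
    ZMod.unitsMap h (dChar N' σ) = dChar N ⟨σ, hσ⟩ := by
  apply Units.ext
  rw [ZMod.unitsMap_val, dChar_val, dChar_val, ZMod.cast_intCast h]

section red

variable {ℓ : ℕ} [Fact ℓ.Prime] {O k : Type*} [CommRing O] [Algebra O ℂ] [Field k] [Algebra O k]
  [CharP k ℓ]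

theorem red_gd' (hO : Injective (algebraMap O ℂ))
    (hint : ∀ x : ℂ, IsIntegral ℤ x → ∃ y : O, algebraMap O ℂ y = x) (d : (ZMod ℓ)ˣ) (m : ℕ)
    {b : O} (hb : algebraMap O ℂ b = qCoeff (gd d) m) :
    algebraMap O k b = if m = 0 then 2 / ZMod.castHom (dvd_refl ℓ) k (d : ZMod ℓ) else 0 := by
  let R : Subring ℂ := (algebraMap O ℂ).range
  have hR : ∀ x : ℂ, IsIntegral ℤ x → x ∈ R := fun x hx => hint x hx
  have hbij : Bijective (algebraMap O ℂ).rangeRestrict :=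
    ⟨fun x y h => hO (congrArg Subtype.val h), (algebraMap O ℂ).rangeRestrict_surjective⟩
  let e : O ≃+* R := RingEquiv.ofBijective (algebraMap O ℂ).rangeRestrict hbij
  have h1 := red_gd hR ((algebraMap O k).comp e.symm.toRingHom) d m
  rw [← h1]
  have h2 : e b = ⟨qCoeff (gd d) m, hR _ (qCoeff_gd_mem d m).2⟩ := Subtype.ext hb
  rw [← h2]
  change _ = algebraMap O k (e.symm (e b))
  rw [e.symm_apply_apply]

end red

section main

variable {M ℓ : ℕ} [NeZero M] [hℓ : Fact ℓ.Prime]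
  {O k : Type*} [CommRing O] [Algebra O ℂ] [Field k] [Algebra O k] [CharP k ℓ]

/-- **Eigenclasses modulo `ℓ` attached to weight one forms** -/
theorem exists_class (hℓ2 : ℓ ≠ 2)
    (f : CuspForm ((Gamma1 M).map (Matrix.SpecialLinearGroup.mapGL ℝ)) 1) (ε : (ZMod M)ˣ →* ℂˣ)
    (hneb : ∀ γ : Gamma0 M, (f : ℍ → ℂ) ∣[(1 : ℤ)] (γ : SL(2, ℤ)) =
      ((ε (dChar M γ) : ℂˣ) : ℂ) • (f : ℍ → ℂ))
    (h1 : qCoeff f 1 = 1)
    (hT : ∀ (p : ℕ) (_ : p.Prime) (hpM : p.Coprime M), ∀ n, qCoeff f (p * n) +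
      ((ε (ZMod.unitOfCoprime p hpM) : ℂˣ) : ℂ) * (if p ∣ n then qCoeff f (n / p) else 0) =
        qCoeff f p * qCoeff f n)
    (hO : Injective (algebraMap O ℂ))
    (hint : ∀ x : ℂ, IsIntegral ℤ x → ∃ y : O, algebraMap O ℂ y = x)
    (hk : Surjective (algebraMap O k))
    (a : ℕ → O) (ha : ∀ n, algebraMap O ℂ (a n) = qCoeff f n)
    (e : (ZMod M)ˣ →* Oˣ) (he : ∀ d, algebraMap O ℂ (e d : Oˣ) = ((ε d : ℂˣ) : ℂ)) :
    ∃ E : (ZMod (M * ℓ))ˣ →* kˣ, (∀ d, ((E d : kˣ) : k) =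
        algebraMap O k (e (ZMod.unitsMap (dvd_mul_right M ℓ) d) : Oˣ) *
          (ZMod.castHom (dvd_refl ℓ) k
            ((ZMod.unitsMap (dvd_mul_left ℓ M) d : (ZMod ℓ)ˣ) : ZMod ℓ))⁻¹) ∧
      ∃ φ : HM (GamH (M * ℓ) ⊥) k, φ ≠ 0 ∧
        (∀ γ : GamH (M * ℓ) ⊥, tr2 (γ : SL(2, ℤ)) ^ 2 = 4 → φ (Additive.ofMul γ) = 0) ∧
        (∀ g : Gamma0 (M * ℓ), diamondL k (M * ℓ) ⊥ k g φ =
          ((E (dChar (M * ℓ) g) : kˣ) : k) • φ) ∧
        (∀ (q : ℕ) [NeZero q] (_ : q.Prime) (hqM : q.Coprime (M * ℓ)),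
          heckeHL k (M * ℓ) ⊥ k q φ =
            ((((E (ZMod.unitOfCoprime q hqM))⁻¹ : kˣ) : k) * algebraMap O k (a q)) • φ) := by
  classical
  have hp : ℓ.Prime := hℓ.out
  have hℓ0 : NeZero ℓ := ⟨hp.ne_zero⟩
  have hN0 : NeZero (M * ℓ) := ⟨mul_ne_zero (NeZero.ne M) (NeZero.ne ℓ)⟩
  obtain ⟨t, ht⟩ := exists_teich (ℓ := ℓ) (algebraMap O ℂ) hO hint (algebraMap O k)
  let χ : (ZMod ℓ)ˣ →* ℂˣ := (Units.map (algebraMap O ℂ : O →* ℂ)).comp t
  have hχ : ∀ d, ((χ d : ℂˣ) : ℂ) = algebraMap O ℂ (t d : Oˣ) := fun d => rfl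
  let uM : (ZMod (M * ℓ))ˣ →* (ZMod M)ˣ := ZMod.unitsMap (dvd_mul_right M ℓ)
  let uℓ : (ZMod (M * ℓ))ˣ →* (ZMod ℓ)ˣ := ZMod.unitsMap (dvd_mul_left ℓ M)
  let χN : (ZMod (M * ℓ))ˣ →* ℂˣ := (ε.comp uM) * (χ.comp uℓ)⁻¹
  let eN : (ZMod (M * ℓ))ˣ →* Oˣ := (e.comp uM) * (t.comp uℓ)⁻¹
  have heN : ∀ d, Units.map (algebraMap O ℂ : O →* ℂ) (eN d) = χN d := by
    intro d
    have h2 : Units.map (algebraMap O ℂ : O →* ℂ) (e (uM d)) = ε (uM d) := Units.ext (he _)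
    change Units.map _ (e (uM d) * (t (uℓ d))⁻¹) = ε (uM d) * (χ (uℓ d))⁻¹
    rw [map_mul, map_inv, h2]
    rfl
  have heN1 : ∀ d, algebraMap O ℂ (eN d : Oˣ) = ((χN d : ℂˣ) : ℂ) := fun d =>
    congrArg Units.val (heN d)
  have heN2 : ∀ d, algebraMap O ℂ ((eN d)⁻¹ : Oˣ) = (((χN d)⁻¹ : ℂˣ) : ℂ) := fun d => by
    rw [← heN d, ← map_inv (Units.map (algebraMap O ℂ : O →* ℂ))]
    rfl
  -- the form
  let h := hform χ
  let F : ℍ → ℂ := (f : ℍ → ℂ) * h
  have hneb' : Neb χN F := by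
    intro σ
    have hσM : (σ : SL(2, ℤ)) ∈ Gamma0 M := H22.Gamma0_anti (dvd_mul_right M ℓ) σ.2
    have hσℓ : (σ : SL(2, ℤ)) ∈ Gamma0 ℓ := H22.Gamma0_anti (dvd_mul_left ℓ M) σ.2
    have h2 := mul_slash_two (f : ℍ → ℂ) h (σ : SL(2, ℤ))
    rw [hneb ⟨σ, hσM⟩, hform_slash χ (σ : SL(2, ℤ)) hσℓ] at h2
    refine Eq.trans h2 ?_
    have h3 : χN (dChar (M * ℓ) σ) = ε (dChar M ⟨σ, hσM⟩) * (χ (dChar ℓ ⟨σ, hσℓ⟩))⁻¹ := by
      change ε (uM (dChar (M * ℓ) σ)) * (χ (uℓ (dChar (M * ℓ) σ)))⁻¹ = _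
      rw [dChar_anti (dvd_mul_right M ℓ) σ hσM, dChar_anti (dvd_mul_left ℓ M) σ hσℓ]
    rw [h3, Units.val_mul]
    funext τ
    simp only [Pi.mul_apply, Pi.smul_apply, smul_eq_mul]
    change _ = _ * (f τ * h τ)
    ring
  have hisF : IsF χN F := ⟨fun γ hγ => cuspAll_mul f h hγ, hneb'⟩
  -- coefficients
  have hbd : ∀ (d : (ZMod ℓ)ˣ) (m : ℕ), ∃ y : O, algebraMap O ℂ y = qCoeff (gd d) m := fun d m =>
    hint _ (qCoeff_gd_mem d m).2
  choose bd hbd using hbd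
  let b : ℕ → O := fun m => ∑ d : (ZMod ℓ)ˣ, (t d : Oˣ) * bd d m
  have hb1 : ∀ m, algebraMap O ℂ (b m) = qCoeff h m := by
    intro m
    rw [qCoeff_hform, map_sum]
    refine Finset.sum_congr rfl fun d _ => ?_
    rw [map_mul, hbd, hχ]
  have hb2 : ∀ m, algebraMap O k (b m) = if m = 0 then -2 else 0 := by
    intro m
    have h2 : ∀ d : (ZMod ℓ)ˣ, algebraMap O k ((t d : Oˣ) * bd d m) = if m = 0 then 2 else 0 := by
      intro d
      rw [map_mul, ht, red_gd' hO hint d m (hbd d m)]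
      have h3 : ZMod.castHom (dvd_refl ℓ) k (d : ZMod ℓ) ≠ 0 :=
        (d.map (ZMod.castHom (dvd_refl ℓ) k).toMonoidHom).ne_zero
      split_ifs
      · field_simp
      · rw [mul_zero]
    rw [map_sum, Finset.sum_congr rfl fun d _ => h2 d, Finset.sum_const, Finset.card_univ,
      ZMod.card_units ℓ]
    split_ifs
    · have h7 : ((ℓ - 1 : ℕ) : k) + 1 = 0 := by
        rw [← Nat.cast_one (R := k), ← Nat.cast_add, Nat.sub_add_cancel hp.one_lt.le,
          CharP.cast_eq_zero]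
      rw [nsmul_eq_mul]
      linear_combination 2 * h7
    · rw [smul_zero]
  let c : ℕ → O := fun n => ∑ x ∈ Finset.HasAntidiagonal.antidiagonal n, a x.1 * b x.2
  have hc1 : ∀ n, algebraMap O ℂ (c n) = qCoeff F n := by
    intro n
    rw [qCoeff_prod, map_sum]
    refine Finset.sum_congr rfl fun x _ => ?_
    rw [map_mul, ha, hb1]
  have hc2 : ∀ n, algebraMap O k (c n) = -2 * algebraMap O k (a n) := by
    intro n
    rw [map_sum, Finset.sum_eq_single (n, 0)]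
    · rw [map_mul, hb2, if_pos rfl, mul_comm]
    · rintro ⟨x, y⟩ hxy hne
      have hy : y ≠ 0 := by
        rintro rfl
        rw [Finset.HasAntidiagonal.mem_antidiagonal] at hxy
        exact hne (by rw [← hxy]; rfl)
      rw [map_mul, hb2, if_neg hy, mul_zero]
    · intro hn
      exact absurd (Finset.HasAntidiagonal.mem_antidiagonal.mpr (add_zero n)) hn
  -- eigenvalues in `O`
  have hTO : ∀ (p : ℕ) (_ : p.Prime) (hpM : p.Coprime M), ∀ n, a (p * n) +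
      (e (ZMod.unitOfCoprime p hpM) : Oˣ) * (if p ∣ n then a (n / p) else 0) = a p * a n := by
    intro p hp hpM n
    apply hO
    rw [map_add, map_mul, map_mul, ha, ha, ha, he, ← hT p hp hpM n]
    congr 2
    split_ifs
    · exact ha _
    · exact map_zero _
  let D : EigData (M * ℓ) O χN :=
    { e := fun q => ((eN (unitOf q.2.2))⁻¹ : Oˣ)
      he := fun q => heN2 _
      t := fun q => ((eN (unitOf q.2.2))⁻¹ : Oˣ) * a q.1
      d := fun g => (eN (dChar (M * ℓ) g) : Oˣ)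
      hd := fun g => heN1 _ }
  have hq : ∀ (q : ℕ) (hqN : q.Coprime (M * ℓ)), (q : k) * algebraMap O k (eN (unitOf hqN) : Oˣ) =
      algebraMap O k (e (ZMod.unitOfCoprime q (Nat.Coprime.coprime_mul_right_right hqN)) : Oˣ) := by
    intro q hqN
    have h2 : uM (unitOf hqN) =
        ZMod.unitOfCoprime q (Nat.Coprime.coprime_mul_right_right hqN) := by
      apply Units.ext
      change ((ZMod.unitsMap (dvd_mul_right M ℓ) (ZMod.unitOfCoprime q hqN) : (ZMod M)ˣ) : ZMod M)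
        = _
      rw [ZMod.unitsMap_val, ZMod.coe_unitOfCoprime, ZMod.coe_unitOfCoprime,
        ZMod.cast_natCast (dvd_mul_right M ℓ)]
    have h3 : ZMod.castHom (dvd_refl ℓ) k ((uℓ (unitOf hqN) : (ZMod ℓ)ˣ) : ZMod ℓ) = (q : k) := by
      change ZMod.castHom (dvd_refl ℓ) k
        ((ZMod.unitsMap (dvd_mul_left ℓ M) (ZMod.unitOfCoprime q hqN) : (ZMod ℓ)ˣ) : ZMod ℓ) = _
      rw [ZMod.unitsMap_val, ZMod.coe_unitOfCoprime, ZMod.cast_natCast (dvd_mul_left ℓ M),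
        map_natCast]
    have h4 : algebraMap O k (t (uℓ (unitOf hqN)) : Oˣ) = (q : k) := by rw [ht, h3]
    have h5 : algebraMap O k ((t (uℓ (unitOf hqN)))⁻¹ : Oˣ) *
        algebraMap O k (t (uℓ (unitOf hqN)) : Oˣ) = 1 := by
      rw [← map_mul, Units.inv_mul, map_one]
    have h6 : eN (unitOf hqN) = e (uM (unitOf hqN)) * (t (uℓ (unitOf hqN)))⁻¹ := rfl
    rw [h6, Units.val_mul, map_mul, h2]
    rw [h4] at h5
    linear_combination algebraMap O k (e (ZMod.unitOfCoprime q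
      (Nat.Coprime.coprime_mul_right_right hqN)) : Oˣ) * h5
  have hgood : Good D k F c := by
    refine ⟨hisF, hc1, fun q n => ?_⟩
    change algebraMap O k ((if q.1 ∣ n then (q.1 : O) * c (n / q.1) else 0) +
      ((eN (unitOf q.2.2))⁻¹ : Oˣ) * c (n * q.1)) =
      algebraMap O k (((eN (unitOf q.2.2))⁻¹ : Oˣ) * a q.1) * algebraMap O k (c n)
    have h2 := hq q.1 q.2.2
    have h3 := congrArg (algebraMap O k) (hTO q.1 q.2.1
      (Nat.Coprime.coprime_mul_right_right q.2.2) n)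
    rw [map_add, map_mul, map_mul] at h3
    have h4 : algebraMap O k (((eN (unitOf q.2.2))⁻¹ : Oˣ) : O) *
        algebraMap O k ((eN (unitOf q.2.2) : Oˣ) : O) = 1 := by
      rw [← map_mul, Units.inv_mul, map_one]
    rw [map_add, map_mul, map_mul, hc2, hc2, mul_comm n q.1]
    have h5 : algebraMap O k (if q.1 ∣ n then (q.1 : O) * c (n / q.1) else 0) =
        -2 * ((q.1 : k) * algebraMap O k (if q.1 ∣ n then a (n / q.1) else 0)) := by
      split_ifs
      · rw [map_mul, map_natCast, hc2]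
        ring
      · rw [map_zero]
        ring
    rw [h5]
    generalize algebraMap O k (if q.1 ∣ n then a (n / q.1) else 0) = x at *
    generalize algebraMap O k (a (q.1 * n)) = y at *
    generalize algebraMap O k (((eN (unitOf q.2.2))⁻¹ : Oˣ) : O) = u at *
    generalize algebraMap O k ((eN (unitOf q.2.2) : Oˣ) : O) = v at *
    rw [← h2] at h3
    linear_combination (-2 * u) * h3 + (2 * (q.1 : k) * x) * h4
  have hc0 : algebraMap O k (c 1) ≠ 0 := by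
    have h2 : a 1 = 1 := hO (by rw [ha, h1, map_one])
    rw [hc2, h2, map_one, mul_one]
    intro h3
    have h4 : ((2 : ℕ) : k) = 0 := by
      push_cast
      linear_combination -h3
    rw [CharP.cast_eq_zero_iff k ℓ] at h4
    exact hℓ2 ((Nat.prime_dvd_prime_iff_eq hp Nat.prime_two).mp h4)
  have hTF : Module.IsTorsionFree ℤ O := by
    have : IsDomain O := hO.isDomain _
    have : CharZero O := ⟨fun m n hmn => by
      have h2 := congrArg (algebraMap O ℂ) hmn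
      rw [map_natCast, map_natCast] at h2
      exact_mod_cast h2⟩
    infer_instance
  obtain ⟨φ, hφ0, hφp, hφ⟩ := exists_eigenclass hO hk hgood hc0
  let E : (ZMod (M * ℓ))ˣ →* kˣ := (Units.map (algebraMap O k : O →* k)).comp eN
  refine ⟨E, fun d => ?_, φ, hφ0, hφp, fun g => hφ (Sum.inr g), fun q hq0 hqp hqM => ?_⟩
  · change algebraMap O k ((e (uM d) * (t (uℓ d))⁻¹ : Oˣ) : O) = _
    rw [Units.val_mul, map_mul, ← ht (uℓ d)]
    congr 1
    have h5 : algebraMap O k ((t (uℓ d))⁻¹ : Oˣ) * algebraMap O k (t (uℓ d) : Oˣ) = 1 := by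
      rw [← map_mul, Units.inv_mul, map_one]
    exact eq_inv_of_mul_eq_one_left h5
  · have h2 := hφ (Sum.inl ⟨q, hqp, hqM⟩)
    have h3 : algebraMap O k (D.sys (Sum.inl ⟨q, hqp, hqM⟩)) =
        (((E (ZMod.unitOfCoprime q hqM))⁻¹ : kˣ) : k) * algebraMap O k (a q) := by
      change algebraMap O k (((eN (unitOf hqM))⁻¹ : Oˣ) * a q) = _
      rw [map_mul]
      rfl
    rw [h3] at h2
    exact h2

end main

end Fermat.Agent.DS2

end
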