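import Mathlib
import Fermat.Agent.DS2.Glue
import Fermat.Agent.DS.Iface
import Fermat.Agent.H23.W1.Main

/-!
# S48: from a weight one form to eigenclasses at all places
-/

set_option autoImplicit false

noncomputable section

namespace Fermat.Agent.DS2

open Filter Topology MatrixGroups ModularForm CongruenceSubgroup Function
open UpperHalfPlane hiding I
open scoped Manifold
open ModularFormClass (qCoeff)
open Fermat.Agent.H22 (dChar dChar_val GamH heckeHL diamondL tr2)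
open Fermat.Agent.TC (HM)
open Fermat.Agent.DS (OO resO)

local notation "Qb" => AlgebraicClosure ℚ

theorem resO_surjective {B : ValuationSubring Qb} {ℓ : ℕ} (hℓ : ℓ.Prime)
    (hB : B.LiesOverPrime ℓ) : Surjective (resO B) :=
  H05.residue_toA_surjective hℓ hB

/-- algebraic integers of `ℂ` come from `OO` -/
theorem exists_OO (i : Qb →+* ℂ) {x : ℂ} (hx : IsIntegral ℤ x) : ∃ y : OO, i (y : Qb) = x := by
  let _ : Algebra Qb ℂ := i.toAlgebra
  have : IsScalarTower ℚ Qb ℂ := IsScalarTower.of_algebraMap_eq' (by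
    exact RingHom.ext_rat _ _)
  have h1 : IsIntegral ℚ x := hx.tower_top
  have h2 : IsIntegral Qb x := h1.tower_top
  obtain ⟨y, hy⟩ := minpoly.mem_range_of_degree_eq_one Qb x
    (IsAlgClosed.degree_eq_one_of_irreducible Qb (minpoly.irreducible h2))
  have h3 : IsIntegral ℤ y := by
    refine (isIntegral_algHom_iff (i.toIntAlgHom) i.injective).mp ?_
    have : i.toIntAlgHom y = x := hy
    rw [this]
    exact hx
  exact ⟨⟨y, h3⟩, hy⟩

/-- the properties of the eigenclasses -/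
structure IsEigClass (M ℓ : ℕ) [NeZero M] [Fact ℓ.Prime] {k : Type*} [Field k] [CharP k ℓ]
    (r : OO →+* k) (a : ℕ → OO) (e : (ZMod M)ˣ →* OOˣ) (E : (ZMod (M * ℓ))ˣ →* kˣ)
    (φ : HM (GamH (M * ℓ) ⊥) k) : Prop where
  hE : ∀ d, ((E d : kˣ) : k) = r (e (ZMod.unitsMap (dvd_mul_right M ℓ) d) : OOˣ) *
    (ZMod.castHom (dvd_refl ℓ) k
      ((ZMod.unitsMap (dvd_mul_left ℓ M) d : (ZMod ℓ)ˣ) : ZMod ℓ))⁻¹
  ne : φ ≠ 0
  par : ∀ γ : GamH (M * ℓ) ⊥, tr2 (γ : SL(2, ℤ)) ^ 2 = 4 → φ (Additive.ofMul γ) = 0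
  dia : ∀ g : Gamma0 (M * ℓ), haveI : NeZero (M * ℓ) :=
      ⟨mul_ne_zero (NeZero.ne M) (Fact.out : ℓ.Prime).ne_zero⟩
    diamondL k (M * ℓ) ⊥ k g φ = ((E (dChar (M * ℓ) g) : kˣ) : k) • φ
  hecke : ∀ (q : ℕ) [NeZero q] (_ : q.Prime) (hqM : q.Coprime (M * ℓ)),
    haveI : NeZero (M * ℓ) := ⟨mul_ne_zero (NeZero.ne M) (Fact.out : ℓ.Prime).ne_zero⟩
    heckeHL k (M * ℓ) ⊥ k q φ =
      ((((E (ZMod.unitOfCoprime q hqM))⁻¹ : kˣ) : k) * r (a q)) • φ

/-- **Eigenclasses at all places** (`DS1 + DS2 + DS3`). -/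
theorem exists_eigclass_all (i : Qb →+* ℂ) {M : ℕ} [NeZero M]
    (f : CuspForm ((Gamma1 M).map (Matrix.SpecialLinearGroup.mapGL ℝ)) 1) (ε : (ZMod M)ˣ →* ℂˣ)
    (hneb : ∀ γ : Gamma0 M, (f : ℍ → ℂ) ∣[(1 : ℤ)] (γ : SL(2, ℤ)) =
      ((ε (dChar M γ) : ℂˣ) : ℂ) • (f : ℍ → ℂ))
    (h1 : qCoeff f 1 = 1)
    (hT : ∀ (p : ℕ) (_ : p.Prime) (hpM : p.Coprime M), ∀ n, qCoeff f (p * n) +
      ((ε (ZMod.unitOfCoprime p hpM) : ℂˣ) : ℂ) * (if p ∣ n then qCoeff f (n / p) else 0) =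
        qCoeff f p * qCoeff f n)
    (hint : ∀ n, IsIntegral ℤ (qCoeff f n)) :
    ∃ (a : ℕ → OO) (e : (ZMod M)ˣ →* OOˣ), (∀ n, i (a n : Qb) = qCoeff f n) ∧
      (∀ d, i (((e d : OOˣ) : OO) : Qb) = ((ε d : ℂˣ) : ℂ)) ∧
      ∀ (ℓ : ℕ) [Fact ℓ.Prime], ℓ ≠ 2 → ∀ (B : ValuationSubring Qb), B.LiesOverPrime ℓ →
        ∀ [CharP (IsLocalRing.ResidueField B) ℓ],
        ∃ E φ, IsEigClass M ℓ (resO B) a e E φ := by
  have ha : ∀ n, ∃ y : OO, i (y : Qb) = qCoeff f n := fun n => exists_OO i (hint n)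
  choose a ha using ha
  let j : OO →+* ℂ := i.comp (algebraMap OO Qb)
  have hj : Injective j := i.injective.comp Subtype.val_injective
  have hjint : ∀ x : ℂ, IsIntegral ℤ x → ∃ y : OO, j y = x := fun x hx => exists_OO i hx
  -- the values of the character
  have hM : Fintype.card (ZMod M)ˣ ≠ 0 := Fintype.card_ne_zero
  have hε : ∀ d, IsIntegral ℤ ((ε d : ℂˣ) : ℂ) := fun d => by
    refine IsIntegral.of_pow (Nat.pos_of_ne_zero hM) ?_
    rw [← Units.val_pow_eq_pow_val, ← map_pow, pow_card_eq_one, map_one]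
    exact isIntegral_one
  choose e₀ he₀ using fun d => hjint _ (hε d)
  let e₁ : (ZMod M)ˣ →* OO :=
    { toFun := e₀
      map_one' := hj (by rw [he₀, map_one, map_one, Units.val_one])
      map_mul' := fun x y => hj (by rw [he₀, map_mul, map_mul, Units.val_mul, he₀, he₀]) }
  let e : (ZMod M)ˣ →* OOˣ := e₁.toHomUnits
  have he : ∀ d, j ((e d : OOˣ) : OO) = ((ε d : ℂˣ) : ℂ) := he₀
  refine ⟨a, e, ha, he, fun ℓ _ hℓ2 B hB _ => ?_⟩
  let _ : Algebra OO ℂ := j.toAlgebra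
  let _ : Algebra OO (IsLocalRing.ResidueField B) := (resO B).toAlgebra
  obtain ⟨E, hE, φ, h2, h3, h4, h5⟩ := exists_class (ℓ := ℓ) (O := OO)
    (k := IsLocalRing.ResidueField B) hℓ2 f ε hneb h1 hT hj hjint
    (resO_surjective Fact.out hB) a ha e he
  exact ⟨E, φ, hE, h2, h3, h4, fun q _ hq hqM => h5 q hq hqM⟩

end Fermat.Agent.DS2

end
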