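import Mathlib
import Fermat.Agent.DS2.GlueQ
import Fermat.Agent.H11J.TwoThree
import Fermat.Agent.H11J.Out
import Fermat.Agent.DS.Irred
import Fermat.Agent.DS.Rankin

/-!
# S48: wiring
-/

set_option autoImplicit false

noncomputable section

namespace Fermat.Agent.DS2

open Filter Topology MatrixGroups ModularForm CongruenceSubgroup Function
open UpperHalfPlane hiding I
open scoped Manifold
open ModularFormClass (qCoeff)
open Fermat.Agent.H22 (dChar dChar_val GamH heckeHL diamondL tr2)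
open Fermat.Agent.TC (HM)
open Fermat.Agent.DS (OO resO ModInput RankinBd)
open Fermat.Agent.H11J (KeyFK PrimFK S48At KPE)

local notation "Qb" => AlgebraicClosure ℚ

/-- KEY at all levels divisible by `2` or `3` -/
def KeyAll [Algebra (AlgebraicClosure ℚ) ℂ] : Prop :=
  ∀ (N : ℕ) [NeZero N], (2 ∣ N ∨ 3 ∣ N) → ∀ m : ℕ, m ≠ 0 → ∀ q : ℕ, q.Prime → ¬ q ∣ N → ¬ q ∣ m →
    ∀ A : ValuationSubring Qb, A.LiesOverPrime q →
      KeyFK (⊥ : Subgroup (ZMod N)ˣ) A m ∧ PrimFK (⊥ : Subgroup (ZMod N)ˣ) A m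

/-- the extension of a character of `(ZMod M)ˣ` to natural numbers -/
def natE {M : ℕ} (e : (ZMod M)ˣ →* OOˣ) (q : ℕ) : OO := by
  classical
  exact if h : q.Coprime M then ((e (ZMod.unitOfCoprime q h) : OOˣ) : OO) else 1

theorem natE_of {M : ℕ} (e : (ZMod M)ˣ →* OOˣ) {q : ℕ} (h : q.Coprime M) :
    natE e q = ((e (ZMod.unitOfCoprime q h) : OOˣ) : OO) := by
  rw [natE, dif_pos h]

section modinput

variable [Algebra (AlgebraicClosure ℚ) ℂ]

theorem modInput_of (hkey : KeyAll) {M : ℕ} [NeZero M] (hM : 2 ∣ M ∨ 3 ∣ M) (a : ℕ → OO)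
    (e : (ZMod M)ˣ →* OOˣ)
    (hcl : ∀ (ℓ : ℕ) [Fact ℓ.Prime], ℓ ≠ 2 → ∀ (B : ValuationSubring Qb), B.LiesOverPrime ℓ →
        ∀ [CharP (IsLocalRing.ResidueField B) ℓ],
        ∃ E φ, IsEigClass M ℓ (resO B) a e E φ) :
    ModInput M a (natE e) := by
  refine ⟨M + 5, fun ℓ hℓ hlt B hB => ?_⟩
  have hf : Fact ℓ.Prime := ⟨hℓ⟩
  have hℓ0 : NeZero ℓ := ⟨hℓ.ne_zero⟩
  have hN0 : NeZero (M * ℓ) := ⟨mul_ne_zero (NeZero.ne M) hℓ.ne_zero⟩
  have hchar : CharP (IsLocalRing.ResidueField B) ℓ := H05.charP_residueField hℓ hB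
  obtain ⟨E, φ, h⟩ := hcl ℓ (by omega) B hB
  have h5 : 5 ≤ M * ℓ := by
    have : 1 ≤ M := NeZero.one_le
    nlinarith
  have hkpe : KPE φ := by
    refine H11J.kpe_of_killsPar h5 (ψ := φ.toMultiplicativeRight) fun γ hγ => ?_
    exact congrArg Multiplicative.ofAdd (h.par γ hγ)
  have hEq : ∀ (q : ℕ) (_ : q.Prime) (hq : Nat.Coprime q (M * ℓ)),
      ((E (ZMod.unitOfCoprime q hq) : (IsLocalRing.ResidueField B)ˣ) :
        IsLocalRing.ResidueField B) = resO B (natE e q) / q := by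
    intro q _ hq
    have hqM : q.Coprime M := Nat.Coprime.coprime_mul_right_right hq
    rw [h.hE, natE_of e hqM, div_eq_mul_inv]
    congr 3
    · congr 2
      apply Units.ext
      rw [ZMod.unitsMap_val, ZMod.coe_unitOfCoprime, ZMod.coe_unitOfCoprime,
        ZMod.cast_natCast (dvd_mul_right M ℓ)]
    · rw [ZMod.unitsMap_val, ZMod.coe_unitOfCoprime, ZMod.cast_natCast (dvd_mul_left ℓ M),
        map_natCast]
  refine H11J.isModRep_of_eigen hℓ hB a (natE e) ?_ φ hkpe h.ne ?_ (fun d => ((E d :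
    (IsLocalRing.ResidueField B)ˣ) : IsLocalRing.ResidueField B)) h.dia hEq ?_
  · intro q hq hqM hqℓ A hA
    refine hkey (M * ℓ) (hM.imp (fun h => h.mul_right ℓ) (fun h => h.mul_right ℓ)) ℓ hℓ.ne_zero q
      hq ?_ ?_ A hA
    · intro hd
      rcases (Nat.Prime.dvd_mul hq).mp hd with hd | hd
      · exact hqM hd
      · exact hqℓ ((Nat.prime_dvd_prime_iff_eq hq hℓ).mp hd)
    · exact fun hd => hqℓ ((Nat.prime_dvd_prime_iff_eq hq hℓ).mp hd)
  · intro q hq hqN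
    have : NeZero q := ⟨hq.ne_zero⟩
    have hc : q.Coprime (M * ℓ) := (Nat.Prime.coprime_iff_not_dvd hq).mpr hqN
    have h2 := h.hecke q hq hc
    rw [Units.val_inv_eq_inv_val, hEq q hq hc] at h2
    rw [h2, inv_div, mul_comm ((q : IsLocalRing.ResidueField B) / resO B (natE e q))]
  · intro q hq hqM
    have hc : q.Coprime M := (Nat.Prime.coprime_iff_not_dvd hq).mpr hqM
    rw [natE_of e hc]
    exact ((e (ZMod.unitOfCoprime q hc)).map (resO B).toMonoidHom).ne_zero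

end modinput

section conj

/-- Conjugates of an eigenform satisfy the Rankin bound. -/
theorem rankin_conj {M : ℕ} [NeZero M] (ε : DirichletCharacter ℂ M) (f : CuspForm (Gamma1 M) 1)
    (h1 : qCoeff f 1 = 1)
    (hT : ∀ p : ℕ, p.Prime → ¬ p ∣ M → ∀ n : ℕ, qCoeff f (p * n) +
      ε (p : ZMod M) * (if p ∣ n then qCoeff f (n / p) else 0) = qCoeff f p * qCoeff f n)
    (σ : ℂ ≃+* ℂ) (g : CuspForm (Gamma1 M) 1) (hg : ∀ n, qCoeff g n = σ (qCoeff f n)) :
    RankinBd M fun p => σ (qCoeff f p) := by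
  have h2 := DS.rankin (ε.ringHomComp σ.toRingHom) g (by rw [hg, h1, map_one]) (by
    intro p hp hpM n
    have h3 := congrArg σ (hT p hp hpM n)
    rw [map_add, map_mul, map_mul] at h3
    rw [hg (p * n), hg p, hg n, ← h3]
    congr 2
    split_ifs
    · exact hg _
    · exact (map_zero σ).symm)
  obtain ⟨C, hC⟩ := h2
  refine ⟨C, fun s hs hs2 P hP => ?_⟩
  have h3 := hC s hs hs2 P hP
  simp only [hg] at h3
  exact h3

/-- extension of an embedding to an automorphism of `ℂ` -/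
theorem exists_aut (i : Qb →+* ℂ) (K₀ : IntermediateField ℚ Qb) [FiniteDimensional ℚ K₀]
    (τ : K₀ →+* ℂ) : ∃ σ : ℂ ≃+* ℂ, ∀ x : K₀, σ (i x) = τ x := by
  let iA : Qb →ₐ[ℚ] ℂ := i.toRatAlgHom
  let K₁ : IntermediateField ℚ ℂ := K₀.map iA
  let eq : K₀ ≃ₐ[ℚ] K₁ := K₀.equivMap iA
  have hfd : FiniteDimensional ℚ K₁ := Module.Finite.equiv eq.toLinearEquiv
  obtain ⟨σ, hσ⟩ := H23.W1.exists_aut_extend K₁ hfd (τ.comp eq.symm.toAlgHom.toRingHom)
  refine ⟨σ, fun x => ?_⟩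
  have h1 := hσ (eq x)
  have h2 : (τ.comp eq.symm.toAlgHom.toRingHom) (eq x) = τ x :=
    congrArg τ (eq.symm_apply_apply x)
  rw [h2] at h1
  exact h1

end conj

/-- **S48 at levels divisible by `2` or `3`, from KEY** -/
theorem s48At_of_key [Algebra (AlgebraicClosure ℚ) ℂ] (hkey : KeyAll) (N : ℕ) [NeZero N]
    (hN : 2 ∣ N ∨ 3 ∣ N) : S48At N := by
  intro ε f hf₁ hT
  obtain ⟨M, hM0, hNM, hMN, f', hf', hneb, hT', hint, hconj, K, hKfin, hKε, hK, -⟩ :=
    H23.W1.ds1 N ε f hf₁ hT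
  have hM : 2 ∣ M ∨ 3 ∣ M := hN.imp (fun h => h.trans hNM) (fun h => h.trans hNM)
  let i : Qb →+* ℂ := algebraMap _ _
  let εM : DirichletCharacter ℂ M := DirichletCharacter.changeLevel hNM ε
  have hεM : ∀ p : ℕ, p.Coprime M → εM (p : ZMod M) = ε (p : ZMod N) := by
    intro p hp
    have h1 := DirichletCharacter.changeLevel_eq_cast_of_dvd ε hNM (ZMod.unitOfCoprime p hp)
    rw [ZMod.coe_unitOfCoprime, ZMod.cast_natCast hNM] at h1
    exact h1
  have hfu1 : qCoeff f' 1 = 1 := by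
    rw [hf', if_pos (Nat.coprime_one_left N), hf₁]
  have hTM : ∀ p : ℕ, p.Prime → ¬ p ∣ M → ∀ n : ℕ, qCoeff f' (p * n) +
      εM (p : ZMod M) * (if p ∣ n then qCoeff f' (n / p) else 0) = qCoeff f' p * qCoeff f' n := by
    intro p hp hpM n
    rw [hεM p ((Nat.Prime.coprime_iff_not_dvd hp).mpr hpM)]
    exact hT' p hp hpM n
  let εu : (ZMod M)ˣ →* ℂˣ := εM.toUnitHom
  have hεu : ∀ u, ((εu u : ℂˣ) : ℂ) = εM (u : ZMod M) := fun u => MulChar.coe_toUnitHom _ _
  obtain ⟨a, e, ha, he, hcl⟩ := exists_eigclass_all i f' εu (fun γ => by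
      rw [hneb _ γ.2, hεu]
      congr 1
      have h1 := DirichletCharacter.changeLevel_eq_cast_of_dvd ε hNM (dChar M γ)
      rw [dChar_val, ZMod.cast_intCast hNM] at h1
      exact h1.symm) hfu1 (fun p hp hpM n => by
      rw [hεu, ZMod.coe_unitOfCoprime]
      exact hTM p hp ((Nat.Prime.coprime_iff_not_dvd hp).mp hpM) n) hint
  have hin := modInput_of hkey hM a e hcl
  -- the number field
  let iA : Qb →ₐ[ℚ] ℂ := i.toRatAlgHom
  let K₀ : IntermediateField ℚ Qb := K.comap iA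
  have hK₀ : FiniteDimensional ℚ K₀ := by
    let L : K₀ →ₗ[ℚ] K :=
      { toFun := fun x => ⟨iA x, x.2⟩
        map_add' := fun x y => Subtype.ext (map_add iA (x : Qb) y)
        map_smul' := fun c x => Subtype.ext (iA.toLinearMap.map_smul c (x : Qb)) }
    refine Module.Finite.of_injective L fun x y hxy => ?_
    exact Subtype.ext (i.injective (congrArg Subtype.val hxy))
  have hNF : NumberField K₀ := { to_charZero := inferInstance, to_finiteDimensional := hK₀ }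
  have haK : ∀ n, ((a n : OO) : Qb) ∈ K₀ := fun n => by
    change i (a n : Qb) ∈ K
    rw [ha]
    exact hK n
  let b : ℕ → K₀ := fun n => ⟨_, haK n⟩
  obtain ⟨ρ, h1, h2, h3⟩ := DS.ds_main (NeZero.ne M) i hin (n := Fintype.card (ZMod M)ˣ)
    Fintype.card_pos (fun p hp hpM => by
      rw [natE_of e ((Nat.Prime.coprime_iff_not_dvd hp).mpr hpM), ← Units.val_pow_eq_pow_val,
        ← map_pow, pow_card_eq_one, map_one, Units.val_one]) K₀ b (fun p _ _ => rfl)
    (fun τ => by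
      obtain ⟨σ, hσ⟩ := exists_aut i K₀ τ
      obtain ⟨g, hg⟩ := hconj σ
      have h4 := rankin_conj εM f' hfu1 hTM σ g hg
      have h5 : (fun p => τ (b p)) = fun p => σ (qCoeff f' p) := by
        funext p
        rw [← hσ, ← ha p]
      rw [h5]
      exact h4)
  refine ⟨ρ, h1, h2, fun p hp hpN A hA => ?_⟩
  have hpM : ¬ p ∣ M := fun h => hpN (hMN p hp h)
  have hpc : p.Coprime M := (Nat.Prime.coprime_iff_not_dvd hp).mpr hpM
  have hpcN : p.Coprime N := (Nat.Prime.coprime_iff_not_dvd hp).mpr hpN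
  obtain ⟨h4, h5⟩ := h3 p hp hpM A hA
  refine ⟨h4, fun σ hσ => ?_⟩
  obtain ⟨h6, h7⟩ := h5 σ hσ
  refine ⟨h6.trans ?_, h7.trans ?_⟩
  · rw [ha, hf', if_pos hpcN]
  · rw [natE_of e hpc, he, hεu, ZMod.coe_unitOfCoprime, hεM p hpc]

/-- **S48 from KEY** -/
theorem s48_of_key [Algebra (AlgebraicClosure ℚ) ℂ] (hkey : KeyAll) (N : ℕ) [NeZero N] :
    S48At N :=
  H11J.s48At_of (fun N _ hN => s48At_of_key hkey N hN) N

end Fermat.Agent.DS2

end
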